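import Mathlib
import Fermat.Agent.LT.T6.H189.ArchIntCut
import Fermat.Agent.LT.T6.H189.HaarEmb

/-!
# Row LT, tower T6, sub-leaf T6.23.12 `H189.IwaOfCC` (helper848)

OFF-MAIN.  Imports: Mathlib and byte-identical copies of `LT/T6/H189/ArchIntSpec.lean`
(sha256 4ac6c090), `ArchIntCut.lean` (db591abe), `HaarEmb.lean` (9413aded) of helper189.

`IwaOfCC : RightInvCC → IwaHomeoCC → U2CompactC → IwasawaCC`.

Route (header of `ArchIntCut.lean`): the group `H = ℝ × ℝ × ℂ × U(2)` with the law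
`(v₁, v₂, y, k₀) (u₁, u₂, x, k) = (v₁ + u₁, v₂ + u₂, x + e^{u₂ - u₁} y, k₀ k)`;
`Ψ (u₁, u₂, x, k) = diag(e^{u₁}, e^{u₂}) n(x) k⁻¹` is an open embedding onto `GL₂(ℂ)` with
`Ψ (h₀ h) = ι(b₀) Ψ(h) k₀⁻¹`; the product measure `du₁ du₂ dx dκ` is a Haar measure of `H`
(skew products); the generic lemma of helper189; `κ` is inversion invariant.
-/

set_option autoImplicit false
set_option linter.style.haveILetI false

open MeasureTheory
open scoped Matrix ENNReal

noncomputable section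

namespace Fermat.Agent.LT.T6.H848

open Fermat.Agent.LT.T6.H189

/-- The Borel σ-algebra of `GL₂(ℂ)` (local instance of this file). -/
local instance borelGL848 : MeasurableSpace (GL (Fin 2) ℂ) := borel _

local instance borelSpaceGL848 : BorelSpace (GL (Fin 2) ℂ) := ⟨rfl⟩

/-! ## 1. Topology of `GL₂(ℂ)` -/

theorem sc_matrix848 : SecondCountableTopology (Matrix (Fin 2) (Fin 2) ℂ) :=
  inferInstanceAs (SecondCountableTopology (Fin 2 → Fin 2 → ℂ))

theorem sc_GL848 : SecondCountableTopology (GL (Fin 2) ℂ) := by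
  haveI := sc_matrix848
  haveI : SecondCountableTopology (Matrix (Fin 2) (Fin 2) ℂ)ᵐᵒᵖ :=
    MulOpposite.opHomeomorph.symm.secondCountableTopology
  exact (Units.isEmbedding_embedProduct (M := Matrix (Fin 2) (Fin 2) ℂ)).secondCountableTopology

local instance instSC848 : SecondCountableTopology (GL (Fin 2) ℂ) := sc_GL848

local instance instSCU848 : SecondCountableTopology U2sub :=
  inferInstanceAs (SecondCountableTopology (U2sub : Set (GL (Fin 2) ℂ)))

/-! ## 2. The group `H` -/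

/-- `H = ℝ × ℝ × ℂ × U(2)` with the skew group law. -/
def HGrp848 : Type := ℝ × ℝ × ℂ × U2sub

namespace HGrp848

instance : TopologicalSpace HGrp848 := inferInstanceAs (TopologicalSpace (ℝ × ℝ × ℂ × U2sub))

instance : MeasurableSpace HGrp848 := inferInstanceAs (MeasurableSpace (ℝ × ℝ × ℂ × U2sub))

instance : BorelSpace HGrp848 := inferInstanceAs (BorelSpace (ℝ × ℝ × ℂ × U2sub))

instance : SecondCountableTopology HGrp848 :=
  inferInstanceAs (SecondCountableTopology (ℝ × ℝ × ℂ × U2sub))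

/-- The product. -/
def mul (a b : HGrp848) : HGrp848 :=
  ((a.1 + b.1, a.2.1 + b.2.1, b.2.2.1 + ((Real.exp (b.2.1 - b.1) : ℝ) : ℂ) * a.2.2.1,
    a.2.2.2 * b.2.2.2) : ℝ × ℝ × ℂ × U2sub)

/-- The inverse. -/
def inv (a : HGrp848) : HGrp848 :=
  ((-a.1, -a.2.1, -(((Real.exp (a.1 - a.2.1) : ℝ) : ℂ) * a.2.2.1), a.2.2.2⁻¹) :
    ℝ × ℝ × ℂ × U2sub)

/-- The unit. -/
def one : HGrp848 := ((0, 0, 0, 1) : ℝ × ℝ × ℂ × U2sub)

instance : Group HGrp848 where
  mul := mul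
  one := one
  inv := inv
  mul_assoc a b c := by
    refine Prod.ext (add_assoc _ _ _) (Prod.ext (add_assoc _ _ _) (Prod.ext ?_ (mul_assoc _ _ _)))
    show c.2.2.1 + ((Real.exp (c.2.1 - c.1) : ℝ) : ℂ)
          * (b.2.2.1 + ((Real.exp (b.2.1 - b.1) : ℝ) : ℂ) * a.2.2.1)
        = c.2.2.1 + ((Real.exp (c.2.1 - c.1) : ℝ) : ℂ) * b.2.2.1
          + ((Real.exp (b.2.1 + c.2.1 - (b.1 + c.1)) : ℝ) : ℂ) * a.2.2.1
    have h : b.2.1 + c.2.1 - (b.1 + c.1) = (c.2.1 - c.1) + (b.2.1 - b.1) := by ring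
    rw [h, Real.exp_add]
    push_cast
    ring
  one_mul a := by
    refine Prod.ext (zero_add _) (Prod.ext (zero_add _) (Prod.ext ?_ (one_mul _)))
    show a.2.2.1 + ((Real.exp (a.2.1 - a.1) : ℝ) : ℂ) * 0 = a.2.2.1
    simp
  mul_one a := by
    refine Prod.ext (add_zero _) (Prod.ext (add_zero _) (Prod.ext ?_ (mul_one _)))
    show (0 : ℂ) + ((Real.exp ((0 : ℝ) - 0) : ℝ) : ℂ) * a.2.2.1 = a.2.2.1
    simp
  inv_mul_cancel a := by
    refine Prod.ext (neg_add_cancel _) (Prod.ext (neg_add_cancel _)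
      (Prod.ext ?_ (inv_mul_cancel _)))
    show a.2.2.1 + ((Real.exp (a.2.1 - a.1) : ℝ) : ℂ)
        * (-(((Real.exp (a.1 - a.2.1) : ℝ) : ℂ) * a.2.2.1)) = 0
    have h : Real.exp (a.2.1 - a.1) * Real.exp (a.1 - a.2.1) = 1 := by
      rw [← Real.exp_add]
      simp
    have h' : ((Real.exp (a.2.1 - a.1) : ℝ) : ℂ) * ((Real.exp (a.1 - a.2.1) : ℝ) : ℂ) = 1 := by
      exact_mod_cast h
    linear_combination (-a.2.2.1) * h'

theorem mul_def (a b : HGrp848) : a * b = mul a b := rfl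

theorem inv_def (a : HGrp848) : a⁻¹ = inv a := rfl

instance : IsTopologicalGroup HGrp848 where
  continuous_mul := by
    show Continuous fun p : (ℝ × ℝ × ℂ × U2sub) × (ℝ × ℝ × ℂ × U2sub) =>
      ((p.1.1 + p.2.1, p.1.2.1 + p.2.2.1,
        p.2.2.2.1 + ((Real.exp (p.2.2.1 - p.2.1) : ℝ) : ℂ) * p.1.2.2.1,
        p.1.2.2.2 * p.2.2.2.2) : ℝ × ℝ × ℂ × U2sub)
    fun_prop
  continuous_inv := by
    show Continuous fun a : ℝ × ℝ × ℂ × U2sub =>
      ((-a.1, -a.2.1, -(((Real.exp (a.1 - a.2.1) : ℝ) : ℂ) * a.2.2.1), a.2.2.2⁻¹) :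
        ℝ × ℝ × ℂ × U2sub)
    fun_prop

end HGrp848


/-! ## 3. Matrix identities -/

theorem dgC_coe848 (u₁ u₂ : ℝ) :
    ((dgC u₁ u₂ : GL (Fin 2) ℂ) : Matrix (Fin 2) (Fin 2) ℂ)
      = !![(Real.exp u₁ : ℂ), 0; 0, (Real.exp u₂ : ℂ)] := rfl

theorem unC_coe848 (w : ℂ) :
    ((unC w : GL (Fin 2) ℂ) : Matrix (Fin 2) (Fin 2) ℂ) = !![1, w; 0, 1] := rfl

/-- The multiplicativity of `ι (u₁, u₂, x) = diag(e^{u₁}, e^{u₂}) n(x)` for the skew law. -/
theorem iota_mul848 (v₁ v₂ u₁ u₂ : ℝ) (y x : ℂ) :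
    dgC (v₁ + u₁) (v₂ + u₂) * unC (x + ((Real.exp (u₂ - u₁) : ℝ) : ℂ) * y)
      = dgC v₁ v₂ * unC y * (dgC u₁ u₂ * unC x) := by
  apply Units.ext
  simp only [Units.val_mul, dgC_coe848, unC_coe848]
  have e1 : ((Real.exp (v₁ + u₁) : ℝ) : ℂ) = (Real.exp v₁ : ℂ) * (Real.exp u₁ : ℂ) := by
    rw [Real.exp_add]; push_cast; rfl
  have e2 : ((Real.exp (v₂ + u₂) : ℝ) : ℂ) = (Real.exp v₂ : ℂ) * (Real.exp u₂ : ℂ) := by
    rw [Real.exp_add]; push_cast; rfl
  have e3 : (Real.exp u₁ : ℂ) * ((Real.exp (u₂ - u₁) : ℝ) : ℂ) = (Real.exp u₂ : ℂ) := by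
    have : Real.exp u₁ * Real.exp (u₂ - u₁) = Real.exp u₂ := by
      rw [← Real.exp_add]; congr 1; ring
    exact_mod_cast this
  ext i j
  fin_cases i <;> fin_cases j
  · simp [Matrix.mul_apply, Fin.sum_univ_two, e1]
  · simp only [Matrix.mul_apply, Fin.sum_univ_two]
    simp only [Fin.zero_eta, Fin.isValue, Matrix.of_apply, Matrix.cons_val', Matrix.cons_val_zero,
      Matrix.cons_val_fin_one, Matrix.cons_val_one, Fin.mk_one, mul_one, mul_zero, add_zero,
      e1]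
    linear_combination ((Real.exp v₁ : ℂ) * y) * e3
  · simp [Matrix.mul_apply, Fin.sum_univ_two]
  · simp [Matrix.mul_apply, Fin.sum_univ_two, e2]

/-! ## 4. The map `Ψ` -/

/-- The homeomorphism `(u₁, u₂, x, k) ↦ (u₁, u₂, x, k⁻¹)`. -/
def sigma848 : HGrp848 ≃ₜ (ℝ × ℝ × ℂ × U2sub) :=
  (Homeomorph.refl ℝ).prodCongr ((Homeomorph.refl ℝ).prodCongr
    ((Homeomorph.refl ℂ).prodCongr (Homeomorph.inv U2sub)))

/-- `Ψ (u₁, u₂, x, k) = diag(e^{u₁}, e^{u₂}) n(x) k⁻¹`. -/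
def Psi848 (h : HGrp848) : GL (Fin 2) ℂ := jC (sigma848 h)

theorem Psi848_apply (h : HGrp848) :
    Psi848 h = dgC h.1 h.2.1 * unC h.2.2.1 * ((h.2.2.2 : U2sub) : GL (Fin 2) ℂ)⁻¹ := rfl

theorem isOpenEmbedding_Psi848 (hJ : IwaHomeoCC) : Topology.IsOpenEmbedding Psi848 :=
  hJ.1.comp sigma848.isOpenEmbedding

theorem surjective_Psi848 (hJ : IwaHomeoCC) : Function.Surjective Psi848 :=
  hJ.2.comp sigma848.surjective

/-- The equivariance of `Ψ`. -/
theorem Psi848_mul (h₀ h : HGrp848) :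
    Psi848 (h₀ * h)
      = dgC h₀.1 h₀.2.1 * unC h₀.2.2.1 * Psi848 h * ((h₀.2.2.2 : U2sub) : GL (Fin 2) ℂ)⁻¹ := by
  rw [Psi848_apply, Psi848_apply]
  have h1 : (h₀ * h).1 = h₀.1 + h.1 := rfl
  have h2 : (h₀ * h).2.1 = h₀.2.1 + h.2.1 := rfl
  have h3 : (h₀ * h).2.2.1 = h.2.2.1 + ((Real.exp (h.2.1 - h.1) : ℝ) : ℂ) * h₀.2.2.1 := rfl
  have h4 : (h₀ * h).2.2.2 = h₀.2.2.2 * h.2.2.2 := rfl
  rw [h1, h2, h3, h4, iota_mul848, Subgroup.coe_mul, mul_inv_rev]
  simp only [mul_assoc]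


/-! ## 5. The Haar probability measure of `U(2)` -/

theorem isClosed_U2_848 : IsClosed (U2sub : Set (GL (Fin 2) ℂ)) := by
  have h : (U2sub : Set (GL (Fin 2) ℂ)) = {k : GL (Fin 2) ℂ | (k : Matrix (Fin 2) (Fin 2) ℂ)
      * (k : Matrix (Fin 2) (Fin 2) ℂ).conjTranspose = 1} := rfl
  rw [h]
  have hc : Continuous fun k : GL (Fin 2) ℂ => (k : Matrix (Fin 2) (Fin 2) ℂ) :=
    Units.continuous_val
  exact isClosed_eq (hc.mul hc.matrix_conjTranspose) continuous_const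

theorem measurableEmbedding_val848 :
    MeasurableEmbedding (Subtype.val : U2sub → GL (Fin 2) ℂ) :=
  MeasurableEmbedding.subtype_coe isClosed_U2_848.measurableSet

theorem range_val848 : Set.range (Subtype.val : U2sub → GL (Fin 2) ℂ) = U2 :=
  Subtype.range_coe

/-- The measure `κ` on `U(2)`. -/
def kappaK848 (κ : Measure (GL (Fin 2) ℂ)) : Measure U2sub :=
  κ.comap (Subtype.val : U2sub → GL (Fin 2) ℂ)

theorem map_val_kappaK848 {κ : Measure (GL (Fin 2) ℂ)} (hκ : IsU2Haar κ) :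
    Measure.map (Subtype.val : U2sub → GL (Fin 2) ℂ) (kappaK848 κ) = κ := by
  unfold kappaK848
  rw [measurableEmbedding_val848.map_comap, range_val848]
  apply Measure.restrict_eq_self_of_ae_mem
  rw [ae_iff]
  exact hκ.supp

theorem kappaK848_univ {κ : Measure (GL (Fin 2) ℂ)} (hκ : IsU2Haar κ) :
    kappaK848 κ Set.univ = 1 := by
  have h : Measure.map (Subtype.val : U2sub → GL (Fin 2) ℂ) (kappaK848 κ) Set.univ
      = κ Set.univ := by rw [map_val_kappaK848 hκ]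
  rw [Measure.map_apply measurableEmbedding_val848.measurable MeasurableSet.univ,
    Set.preimage_univ, hκ.prob] at h
  exact h

theorem isMulLeftInvariant_kappaK848 {κ : Measure (GL (Fin 2) ℂ)} (hκ : IsU2Haar κ) :
    (kappaK848 κ).IsMulLeftInvariant := by
  refine ⟨fun k₀ => ?_⟩
  have hme := measurableEmbedding_val848
  have hinj : ∀ m₁ m₂ : Measure U2sub,
      Measure.map (Subtype.val : U2sub → GL (Fin 2) ℂ) m₁
        = Measure.map (Subtype.val : U2sub → GL (Fin 2) ℂ) m₂ → m₁ = m₂ := by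
    intro m₁ m₂ h
    rw [← hme.comap_map m₁, ← hme.comap_map m₂, h]
  apply hinj
  rw [Measure.map_map hme.measurable (measurable_const_mul k₀)]
  have hcomp : (Subtype.val : U2sub → GL (Fin 2) ℂ) ∘ (fun k => k₀ * k)
      = (fun g : GL (Fin 2) ℂ => (k₀ : GL (Fin 2) ℂ) * g) ∘ Subtype.val := by
    funext k
    rfl
  rw [hcomp, ← Measure.map_map (measurable_const_mul _) hme.measurable, map_val_kappaK848 hκ]
  exact hκ.left _ k₀.2

theorem isHaarMeasure_kappaK848 [CompactSpace U2sub] {κ : Measure (GL (Fin 2) ℂ)}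
    (hκ : IsU2Haar κ) : (kappaK848 κ).IsHaarMeasure := by
  haveI := isMulLeftInvariant_kappaK848 hκ
  refine Measure.isHaarMeasure_of_isCompact_nonempty_interior (kappaK848 κ) Set.univ
    isCompact_univ ?_ ?_ ?_
  · rw [interior_univ]
    exact Set.univ_nonempty
  · rw [kappaK848_univ hκ]
    exact one_ne_zero
  · rw [kappaK848_univ hκ]
    exact ENNReal.one_ne_top

theorem isFiniteMeasure_kappaK848 {κ : Measure (GL (Fin 2) ℂ)} (hκ : IsU2Haar κ) :
    IsFiniteMeasure (kappaK848 κ) :=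
  ⟨by rw [kappaK848_univ hκ]; exact ENNReal.one_lt_top⟩

/-- The image of `κ_K` under `k ↦ k⁻¹` (in `GL₂(ℂ)`) is `κ`. -/
theorem map_inv_kappaK848 {κ : Measure (GL (Fin 2) ℂ)} (hκ : IsU2Haar κ) :
    Measure.map (fun k : U2sub => ((k : GL (Fin 2) ℂ))⁻¹) (kappaK848 κ) = κ := by
  have hcomp : (fun k : U2sub => ((k : GL (Fin 2) ℂ))⁻¹)
      = (fun g : GL (Fin 2) ℂ => g⁻¹) ∘ Subtype.val := rfl
  rw [hcomp, ← Measure.map_map measurable_inv measurableEmbedding_val848.measurable,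
    map_val_kappaK848 hκ]
  exact hκ.inv


/-! ## 6. The Haar measure of `H` -/

/-- The product measure `du₁ du₂ dx dκ` on `H`. -/
def eta848 (κK : Measure U2sub) : Measure HGrp848 :=
  ((volume : Measure ℝ).prod ((volume : Measure ℝ).prod ((volume : Measure ℂ).prod κK)) :
    Measure (ℝ × ℝ × ℂ × U2sub))

theorem map_mul_left_eta848 (κK : Measure U2sub) [κK.IsMulLeftInvariant] [SFinite κK]
    (a : HGrp848) : Measure.map (fun h : HGrp848 => a * h) (eta848 κK) = eta848 κK := by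
  have h3 : ∀ c : ℂ, MeasurePreserving (fun q : ℂ × U2sub => (q.1 + c, a.2.2.2 * q.2))
      ((volume : Measure ℂ).prod κK) ((volume : Measure ℂ).prod κK) := fun c =>
    (measurePreserving_add_right (volume : Measure ℂ) c).prod
      (measurePreserving_mul_left κK a.2.2.2)
  have h2 : ∀ u₁ : ℝ, MeasurePreserving
      (fun q : ℝ × ℂ × U2sub => ((a.2.1 + q.1,
        q.2.1 + ((Real.exp (q.1 - u₁) : ℝ) : ℂ) * a.2.2.1, a.2.2.2 * q.2.2) : ℝ × ℂ × U2sub))
      ((volume : Measure ℝ).prod ((volume : Measure ℂ).prod κK))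
      ((volume : Measure ℝ).prod ((volume : Measure ℂ).prod κK)) := by
    intro u₁
    have hgm : Measurable (Function.uncurry fun (u₂ : ℝ) (q : ℂ × U2sub) =>
        ((q.1 + ((Real.exp (u₂ - u₁) : ℝ) : ℂ) * a.2.2.1, a.2.2.2 * q.2) : ℂ × U2sub)) := by
      have hc : Continuous (Function.uncurry fun (u₂ : ℝ) (q : ℂ × U2sub) =>
          ((q.1 + ((Real.exp (u₂ - u₁) : ℝ) : ℂ) * a.2.2.1, a.2.2.2 * q.2) : ℂ × U2sub)) := by
        unfold Function.uncurry
        fun_prop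
      exact hc.measurable
    exact MeasurePreserving.skew_product (f := fun u₂ : ℝ => a.2.1 + u₂)
      (measurePreserving_add_left (volume : Measure ℝ) a.2.1) hgm
      (Filter.Eventually.of_forall fun u₂ => (h3 _).map_eq)
  have h1 : MeasurePreserving
      (fun p : ℝ × ℝ × ℂ × U2sub => ((a.1 + p.1, a.2.1 + p.2.1,
        p.2.2.1 + ((Real.exp (p.2.1 - p.1) : ℝ) : ℂ) * a.2.2.1, a.2.2.2 * p.2.2.2) :
          ℝ × ℝ × ℂ × U2sub))
      ((volume : Measure ℝ).prod ((volume : Measure ℝ).prod ((volume : Measure ℂ).prod κK)))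
      ((volume : Measure ℝ).prod ((volume : Measure ℝ).prod ((volume : Measure ℂ).prod κK))) := by
    have hgm : Measurable (Function.uncurry fun (u₁ : ℝ) (q : ℝ × ℂ × U2sub) =>
        ((a.2.1 + q.1, q.2.1 + ((Real.exp (q.1 - u₁) : ℝ) : ℂ) * a.2.2.1, a.2.2.2 * q.2.2) :
          ℝ × ℂ × U2sub)) := by
      have hc : Continuous (Function.uncurry fun (u₁ : ℝ) (q : ℝ × ℂ × U2sub) =>
          ((a.2.1 + q.1, q.2.1 + ((Real.exp (q.1 - u₁) : ℝ) : ℂ) * a.2.2.1, a.2.2.2 * q.2.2) :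
            ℝ × ℂ × U2sub)) := by
        unfold Function.uncurry
        fun_prop
      exact hc.measurable
    exact MeasurePreserving.skew_product (f := fun u₁ : ℝ => a.1 + u₁)
      (measurePreserving_add_left (volume : Measure ℝ) a.1) hgm
      (Filter.Eventually.of_forall fun u₁ => (h2 u₁).map_eq)
  exact h1.map_eq

theorem isHaarMeasure_eta848 (κK : Measure U2sub) [κK.IsHaarMeasure] [IsFiniteMeasure κK] :
    (eta848 κK).IsHaarMeasure := by
  haveI : IsFiniteMeasureOnCompacts (eta848 κK) :=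
    inferInstanceAs (IsFiniteMeasureOnCompacts
      ((volume : Measure ℝ).prod ((volume : Measure ℝ).prod ((volume : Measure ℂ).prod κK))))
  haveI : (eta848 κK).IsOpenPosMeasure :=
    inferInstanceAs (Measure.IsOpenPosMeasure
      ((volume : Measure ℝ).prod ((volume : Measure ℝ).prod ((volume : Measure ℂ).prod κK))))
  haveI : (eta848 κK).IsMulLeftInvariant := ⟨fun a => map_mul_left_eta848 κK a⟩
  exact { }

/-! ## 7. The image measure -/

theorem continuous_iota848 (hJ : IwaHomeoCC) :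
    Continuous fun q : ℝ × ℝ × ℂ => dgC q.1 q.2.1 * unC q.2.2 := by
  have h1 : Continuous fun q : ℝ × ℝ × ℂ => ((q.1, q.2.1, q.2.2, 1) : ℝ × ℝ × ℂ × U2sub) := by
    fun_prop
  have h2 := hJ.1.continuous.comp h1
  have h3 : (jC ∘ fun q : ℝ × ℝ × ℂ => ((q.1, q.2.1, q.2.2, 1) : ℝ × ℝ × ℂ × U2sub))
      = fun q : ℝ × ℝ × ℂ => dgC q.1 q.2.1 * unC q.2.2 := by
    funext q
    show dgC q.1 q.2.1 * unC q.2.2 * ((1 : U2sub) : GL (Fin 2) ℂ) = dgC q.1 q.2.1 * unC q.2.2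
    rw [Subgroup.coe_one, mul_one]
  rwa [h3] at h2

theorem continuous_iwaC848 (hJ : IwaHomeoCC) : Continuous iwaC := by
  have h1 : Continuous fun p : ℝ × ℝ × ℂ × GL (Fin 2) ℂ =>
      ((p.1, p.2.1, p.2.2.1) : ℝ × ℝ × ℂ) := by fun_prop
  have h2 : Continuous fun p : ℝ × ℝ × ℂ × GL (Fin 2) ℂ => p.2.2.2 := by fun_prop
  exact ((continuous_iota848 hJ).comp h1).mul h2

/-- `(u₁, u₂, x, k) ↦ (u₁, u₂, x, k⁻¹)` with values in `ℝ × ℝ × ℂ × GL₂(ℂ)`. -/
def tau848 : HGrp848 → ℝ × ℝ × ℂ × GL (Fin 2) ℂ :=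
  Prod.map id (Prod.map id (Prod.map id fun k : U2sub => ((k : GL (Fin 2) ℂ))⁻¹))

theorem measurable_tauK848 : Measurable fun k : U2sub => ((k : GL (Fin 2) ℂ))⁻¹ :=
  measurable_inv.comp measurableEmbedding_val848.measurable

theorem measurable_tau848 : Measurable tau848 :=
  measurable_id.prodMap (measurable_id.prodMap (measurable_id.prodMap measurable_tauK848))

theorem map_tau_aux848 {κ : Measure (GL (Fin 2) ℂ)} (hκ : IsU2Haar κ) :
    Measure.map
      (Prod.map id (Prod.map id (Prod.map id fun k : U2sub => ((k : GL (Fin 2) ℂ))⁻¹)) :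
        ℝ × ℝ × ℂ × U2sub → ℝ × ℝ × ℂ × GL (Fin 2) ℂ)
      ((volume : Measure ℝ).prod ((volume : Measure ℝ).prod
        ((volume : Measure ℂ).prod (kappaK848 κ))))
    = (volume : Measure ℝ).prod ((volume : Measure ℝ).prod ((volume : Measure ℂ).prod κ)) := by
  haveI := isFiniteMeasure_kappaK848 hκ
  rw [← Measure.map_prod_map _ _ measurable_id
      (measurable_id.prodMap (measurable_id.prodMap measurable_tauK848)),
    ← Measure.map_prod_map _ _ measurable_id (measurable_id.prodMap measurable_tauK848),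
    ← Measure.map_prod_map _ _ measurable_id measurable_tauK848,
    Measure.map_id, Measure.map_id, map_inv_kappaK848 hκ]

theorem map_tau848 {κ : Measure (GL (Fin 2) ℂ)} (hκ : IsU2Haar κ) :
    Measure.map tau848 (eta848 (kappaK848 κ)) = iwaMC κ :=
  map_tau_aux848 hκ

theorem map_Psi848 (hJ : IwaHomeoCC) {κ : Measure (GL (Fin 2) ℂ)} (hκ : IsU2Haar κ) :
    Measure.map Psi848 (eta848 (kappaK848 κ)) = Measure.map iwaC (iwaMC κ) := by
  have h : Psi848 = iwaC ∘ tau848 := rfl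
  rw [h, ← Measure.map_map (continuous_iwaC848 hJ).measurable measurable_tau848, map_tau848 hκ]

/-! ## 8. The leaf -/

/-- **T6.23.12** -/
theorem iwaOfCC848 : IwaOfCC := by
  intro hR hJ hU κ hκ μ hμ
  haveI : CompactSpace U2sub := hU
  haveI : μ.IsHaarMeasure := hμ
  haveI := isHaarMeasure_kappaK848 hκ
  haveI := isFiniteMeasure_kappaK848 hκ
  haveI : LocallyCompactSpace HGrp848 :=
    inferInstanceAs (LocallyCompactSpace (ℝ × ℝ × ℂ × U2sub))
  haveI := isHaarMeasure_eta848 (kappaK848 κ)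
  obtain ⟨c, hc0, hctop, hc⟩ := haar_restrict_range_eq_smul_map189 μ (eta848 (kappaK848 κ))
    Psi848 (isOpenEmbedding_Psi848 hJ) (fun h₀ =>
      ⟨dgC h₀.1 h₀.2.1 * unC h₀.2.2.1, ((h₀.2.2.2 : U2sub) : GL (Fin 2) ℂ)⁻¹,
        fun h => Psi848_mul h₀ h, (hR μ hμ).1 _⟩)
  refine ⟨c, hc0, hctop, ?_⟩
  rw [(surjective_Psi848 hJ).range_eq, Measure.restrict_univ, map_Psi848 hJ hκ] at hc
  exact hc

example : IwaOfCC := iwaOfCC848

end Fermat.Agent.LT.T6.H848

end
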