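import Mathlib
import Fermat.Agent.LT.T6.H830.InjSpec

/-!
# Row LT, tower T6, sub-leaf T6.21.4 `H830.HcZFormC` (helper848)

OFF-MAIN.  Imports: Mathlib and byte-identical copies of `LT/T6/H830/InjSpec.lean`
(sha256 065bae8e), `HCSpec.lean` (c3e7d846), `LT/T6/SpecArch.lean` (003240b2),
`LT/T6/Spec.lean` v3 (8c5f2ae7).

`hcZ f r = ∫_x wph n r x · torT f (arcosh (rhoRX r x)) dx`:
* pointwise `f (bR ζ r x) = wph n r x · f (bR ζ t 0)`, `t = arcosh830 (rhoRX r x)` (Cartan
  decomposition of `bR ζ r x`; determinant, sum of the squares of the entries, `holPart`);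
* `(ζ, x) ↦ f (bR ζ r x)` is continuous with compact support, Fubini.
-/

set_option autoImplicit false
set_option linter.style.haveILetI false

open scoped Matrix
open MeasureTheory

noncomputable section

namespace Fermat.Agent.LT.T6.H848

open Fermat.Agent.LT.T6 Fermat.Agent.LT.T6.H830

/-! ## 1. The Cartan decomposition of `bR ζ r x` -/

/-- `arcosh830 (cosh t) = t` for `t ≥ 0`. -/
theorem arcosh_cosh848 {t : ℝ} (ht : 0 ≤ t) : arcosh830 (Real.cosh t) = t := by
  unfold arcosh830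
  have h1 : Real.cosh t ^ 2 - 1 = Real.sinh t ^ 2 := by
    have := Real.cosh_sq t
    linarith
  rw [h1, Real.sqrt_sq (Real.sinh_nonneg_iff.mpr ht), Real.cosh_add_sinh, Real.log_exp]

/-- `cosh (t/2) = √((cosh t + 1)/2)`. -/
theorem cosh_half848 (t : ℝ) : Real.cosh (t / 2) = Real.sqrt ((Real.cosh t + 1) / 2) := by
  have h1 : Real.cosh t = 2 * Real.cosh (t / 2) ^ 2 - 1 := by
    have := Real.cosh_two_mul (t / 2)
    have h2 : 2 * (t / 2) = t := by ring
    rw [h2] at this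
    have h3 := Real.cosh_sq (t / 2)
    rw [this]
    linarith
  have h4 : (Real.cosh t + 1) / 2 = Real.cosh (t / 2) ^ 2 := by linarith
  rw [h4, Real.sqrt_sq (Real.cosh_pos _).le]

theorem inSO2_rotR848 (θ : ℝ) : InSO2 (rotR θ) := by
  have h := Real.cos_sq_add_sin_sq θ
  constructor
  · rw [coe_rotR830]
    ext i j
    fin_cases i <;> fin_cases j <;>
      simp [Matrix.mul_apply, Fin.sum_univ_two, Matrix.transpose_apply] <;> nlinarith [h]
  · rw [coe_rotR830, Matrix.det_fin_two_of]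
    nlinarith [h]

theorem holPart_rotR848 (θ : ℝ) :
    holPart (rotR θ) = (Real.cos θ : ℂ) + (Real.sin θ : ℂ) * Complex.I := by
  unfold holPart
  rw [coe_rotR830]
  simp only [Matrix.of_apply, Matrix.cons_val', Matrix.cons_val_zero, Matrix.cons_val_one,
    Matrix.cons_val_fin_one]
  push_cast
  ring

/-- The pointwise identity. -/
theorem f_bR848 (hC : CartanRC) {n : ℤ} {f : GL (Fin 2) ℝ → ℂ} (hf : IsArchTestR n f)
    (ζ r x : ℝ) :
    f (bR ζ r x) = wph n r x * f (bR ζ (arcosh830 (rhoRX r x)) 0) := by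
  have hdet : ((bR ζ r x : GL (Fin 2) ℝ) : Matrix (Fin 2) (Fin 2) ℝ).det = Real.exp ζ := by
    rw [coe_bR830, Matrix.det_fin_two_of, mul_zero, sub_zero, ← Real.exp_add]
    congr 1
    ring
  obtain ⟨ζ', α, β, t, ht, hy⟩ := hC (bR ζ r x) (by rw [hdet]; exact Real.exp_pos _)
  -- the matrix equation
  have hM : ((bR ζ r x : GL (Fin 2) ℝ) : Matrix (Fin 2) (Fin 2) ℝ)
      = (rotR α : Matrix (Fin 2) (Fin 2) ℝ) * (bR ζ' t 0 : Matrix (Fin 2) (Fin 2) ℝ)
        * (rotR β : Matrix (Fin 2) (Fin 2) ℝ) := by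
    rw [hy]
    rfl
  rw [coe_bR830, coe_bR830, coe_rotR830, coe_rotR830] at hM
  set A := Real.exp ((ζ + r) / 2) with hA
  set B := Real.exp ((ζ - r) / 2) with hB
  set A' := Real.exp ((ζ' + t) / 2) with hA'
  set B' := Real.exp ((ζ' - t) / 2) with hB'
  set cα := Real.cos α with hcα
  set sα := Real.sin α with hsα
  set cβ := Real.cos β with hcβ
  set sβ := Real.sin β with hsβ
  have hα : cα ^ 2 + sα ^ 2 = 1 := Real.cos_sq_add_sin_sq α
  have hβ : cβ ^ 2 + sβ ^ 2 = 1 := Real.cos_sq_add_sin_sq β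
  have h00 : A = cα * A' * cβ - sα * B' * sβ := by
    have := congrFun (congrFun hM 0) 0
    simp [Matrix.mul_apply, Fin.sum_univ_two] at this
    linarith
  have h01 : A * x = -(cα * A' * sβ) - sα * B' * cβ := by
    have := congrFun (congrFun hM 0) 1
    simp [Matrix.mul_apply, Fin.sum_univ_two] at this
    linarith
  have h10 : 0 = sα * A' * cβ + cα * B' * sβ := by
    have := congrFun (congrFun hM 1) 0
    simp [Matrix.mul_apply, Fin.sum_univ_two] at this
    linarith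
  have h11 : B = -(sα * A' * sβ) + cα * B' * cβ := by
    have := congrFun (congrFun hM 1) 1
    simp [Matrix.mul_apply, Fin.sum_univ_two] at this
    linarith
  -- determinant: `ζ' = ζ`
  have hAB : A * B = Real.exp ζ := by
    rw [hA, hB, ← Real.exp_add]
    congr 1
    ring
  have hAB' : A' * B' = Real.exp ζ' := by
    rw [hA', hB', ← Real.exp_add]
    congr 1
    ring
  have hdet2 : A * B = A' * B' := by
    linear_combination B * h00 + (cα * A' * cβ - sα * B' * sβ) * h11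
      + (-(-(cα * A' * sβ) - sα * B' * cβ)) * h10
      + (A' * B' * (cβ ^ 2 + sβ ^ 2)) * hα + (A' * B') * hβ
  have hζ : ζ' = ζ := by
    apply Real.exp_injective
    rw [← hAB', ← hAB, hdet2]
  subst hζ
  -- sum of the squares: `cosh t = rhoRX r x`
  have hsq : A ^ 2 + (A * x) ^ 2 + B ^ 2 = A' ^ 2 + B' ^ 2 := by
    linear_combination (A + (cα * A' * cβ - sα * B' * sβ)) * h00
      + (A * x + (-(cα * A' * sβ) - sα * B' * cβ)) * h01
      + (B + (-(sα * A' * sβ) + cα * B' * cβ)) * h11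
      + (sα * A' * cβ + cα * B' * sβ) * h10
      + ((A' ^ 2 + B' ^ 2) * (cβ ^ 2 + sβ ^ 2)) * hα + (A' ^ 2 + B' ^ 2) * hβ
  have hE : ∀ u : ℝ, Real.exp ((ζ' + u) / 2) = Real.exp (ζ' / 2) * Real.exp (u / 2) := by
    intro u
    rw [← Real.exp_add]
    congr 1
    ring
  have hE' : ∀ u : ℝ, Real.exp ((ζ' - u) / 2) = Real.exp (ζ' / 2) * Real.exp (-(u / 2)) := by
    intro u
    rw [← Real.exp_add]
    congr 1
    ring
  have hEpos : 0 < Real.exp (ζ' / 2) := Real.exp_pos _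
  have hA2 : A = Real.exp (ζ' / 2) * Real.exp (r / 2) := hE r
  have hB2 : B = Real.exp (ζ' / 2) * Real.exp (-(r / 2)) := hE' r
  have hA2' : A' = Real.exp (ζ' / 2) * Real.exp (t / 2) := hE t
  have hB2' : B' = Real.exp (ζ' / 2) * Real.exp (-(t / 2)) := hE' t
  have hsq2 : ∀ u : ℝ, Real.exp (u / 2) ^ 2 = Real.exp u := by
    intro u
    rw [sq, ← Real.exp_add]
    congr 1
    ring
  have hsq3 : ∀ u : ℝ, Real.exp (-(u / 2)) ^ 2 = Real.exp (-u) := by
    intro u
    rw [sq, ← Real.exp_add]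
    congr 1
    ring
  have hρ : rhoRX r x = Real.cosh t := by
    unfold rhoRX
    rw [Real.cosh_eq, Real.cosh_eq]
    have h1 : Real.exp (ζ' / 2) ^ 2 * (Real.exp r + Real.exp r * x ^ 2 + Real.exp (-r))
        = Real.exp (ζ' / 2) ^ 2 * (Real.exp t + Real.exp (-t)) := by
      have := hsq
      rw [hA2, hB2, hA2', hB2'] at this
      rw [← hsq2 r, ← hsq3 r, ← hsq2 t, ← hsq3 t]
      linear_combination this
    have h2 : Real.exp r + Real.exp r * x ^ 2 + Real.exp (-r) = Real.exp t + Real.exp (-t) :=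
      mul_left_cancel₀ (pow_ne_zero 2 hEpos.ne') h1
    linarith
  rw [hρ, arcosh_cosh848 ht]
  -- the weights
  have hf1 : f (bR ζ' r x)
      = (wtChar n (rotR β))⁻¹ * ((wtChar n (rotR α))⁻¹ * f (bR ζ' t 0)) := by
    rw [hy, hf.right _ _ (inSO2_rotR848 β), hf.left _ _ (inSO2_rotR848 α)]
  rw [hf1, ← mul_assoc]
  congr 1
  -- the phase
  unfold wtChar wph
  rw [holPart_rotR848, holPart_rotR848, ← mul_inv, ← mul_zpow, ← inv_zpow]
  congr 1
  rw [hρ, ← cosh_half848]
  have hct : 0 < Real.cosh (t / 2) := Real.cosh_pos _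
  -- real identities
  have hp : (cα * cβ - sα * sβ) * Real.cosh (t / 2) = Real.cosh (r / 2) := by
    have h1 : A + B = (A' + B') * (cα * cβ - sα * sβ) := by
      linear_combination h00 + h11
    rw [hA2, hB2, hA2', hB2'] at h1
    have h2 : Real.exp (ζ' / 2) * (2 * Real.cosh (r / 2))
        = Real.exp (ζ' / 2) * (2 * Real.cosh (t / 2) * (cα * cβ - sα * sβ)) := by
      rw [Real.cosh_eq, Real.cosh_eq]
      linear_combination h1
    have h3 := mul_left_cancel₀ hEpos.ne' h2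
    linarith
  have hq : (sα * cβ + cα * sβ) * Real.cosh (t / 2) = -(Real.exp (r / 2) * x / 2) := by
    have h1 : -(A * x) = (A' + B') * (sα * cβ + cα * sβ) := by
      linear_combination h10 - h01
    rw [hA2, hA2', hB2'] at h1
    have h2 : Real.exp (ζ' / 2) * (-(Real.exp (r / 2) * x))
        = Real.exp (ζ' / 2) * (2 * Real.cosh (t / 2) * (sα * cβ + cα * sβ)) := by
      rw [Real.cosh_eq]
      linear_combination h1
    have h3 := mul_left_cancel₀ hEpos.ne' h2
    linarith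
  have hpq : (cα * cβ - sα * sβ) ^ 2 + (sα * cβ + cα * sβ) ^ 2 = 1 := by
    linear_combination (cβ ^ 2 + sβ ^ 2) * hα + hβ
  rw [← hcα, ← hsα, ← hcβ, ← hsβ]
  apply inv_eq_of_mul_eq_one_left
  have hctC : ((Real.cosh (t / 2) : ℝ) : ℂ) ≠ 0 := Complex.ofReal_ne_zero.mpr hct.ne'
  have hpC : ((Real.cosh (r / 2) : ℝ) : ℂ)
      = ((cα * cβ - sα * sβ : ℝ) : ℂ) * ((Real.cosh (t / 2) : ℝ) : ℂ) := by
    rw [← Complex.ofReal_mul, hp]
  have hqC : ((Real.exp (r / 2) * x / 2 : ℝ) : ℂ)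
      = -(((sα * cβ + cα * sβ : ℝ) : ℂ) * ((Real.cosh (t / 2) : ℝ) : ℂ)) := by
    rw [← Complex.ofReal_mul, hq]
    push_cast
    ring
  have hpqC : ((cα * cβ - sα * sβ : ℝ) : ℂ) ^ 2 + ((sα * cβ + cα * sβ : ℝ) : ℂ) ^ 2 = 1 := by
    exact_mod_cast hpq
  have hP : ((cα * cβ - sα * sβ : ℝ) : ℂ) = (cα : ℂ) * cβ - sα * sβ := by push_cast; ring
  have hQ : ((sα * cβ + cα * sβ : ℝ) : ℂ) = (sα : ℂ) * cβ + cα * sβ := by push_cast; ring
  rw [hpC, hqC, div_mul_eq_mul_div, div_eq_iff hctC, hP, hQ]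
  rw [hP, hQ] at hpqC
  generalize ((Real.cosh (t / 2) : ℝ) : ℂ) = CT
  linear_combination CT * hpqC
    + (CT * (-((sα : ℂ) * cβ + cα * sβ) ^ 2
        + (((cα : ℂ) * cβ - sα * sβ) - ((sα : ℂ) * cβ + cα * sβ) * Complex.I) * (sα * sβ)))
      * Complex.I_sq

/-! ## 2. Regularity of `(ζ, x) ↦ f (bR ζ r x)` -/

/-- The inverse of `bR ζ r x`. -/
theorem coe_inv_bR848 (ζ r x : ℝ) :
    (((bR ζ r x)⁻¹ : GL (Fin 2) ℝ) : Matrix (Fin 2) (Fin 2) ℝ)
      = !![Real.exp (-((ζ + r) / 2)), -(x * Real.exp (-((ζ - r) / 2)));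
          0, Real.exp (-((ζ - r) / 2))] := by
  rw [Matrix.coe_units_inv, coe_bR830]
  apply Matrix.inv_eq_right_inv
  have h1 : Real.exp ((ζ + r) / 2) * Real.exp (-((ζ + r) / 2)) = 1 := by
    rw [← Real.exp_add, add_neg_cancel, Real.exp_zero]
  have h2 : Real.exp ((ζ - r) / 2) * Real.exp (-((ζ - r) / 2)) = 1 := by
    rw [← Real.exp_add, add_neg_cancel, Real.exp_zero]
  ext i j
  fin_cases i <;> fin_cases j
  · simp [Matrix.mul_apply, Fin.sum_univ_two, h1]
  · simp only [Matrix.mul_apply, Fin.sum_univ_two]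
    simp
    ring
  · simp [Matrix.mul_apply, Fin.sum_univ_two]
  · simp [Matrix.mul_apply, Fin.sum_univ_two, h2]

theorem continuous_bR848 (r : ℝ) : Continuous fun p : ℝ × ℝ => bR p.1 r p.2 := by
  rw [Units.continuous_iff]
  constructor
  · apply continuous_matrix
    intro i j
    show Continuous fun p : ℝ × ℝ =>
      ((bR p.1 r p.2 : GL (Fin 2) ℝ) : Matrix (Fin 2) (Fin 2) ℝ) i j
    simp only [coe_bR830]
    fin_cases i <;> fin_cases j <;> simp <;> fun_prop
  · apply continuous_matrix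
    intro i j
    show Continuous fun p : ℝ × ℝ =>
      (((bR p.1 r p.2)⁻¹ : GL (Fin 2) ℝ) : Matrix (Fin 2) (Fin 2) ℝ) i j
    simp only [coe_inv_bR848]
    fin_cases i <;> fin_cases j <;> simp <;> fun_prop

theorem continuous_F848 {n : ℤ} {f : GL (Fin 2) ℝ → ℂ} (hf : IsArchTestR n f) (r : ℝ) :
    Continuous fun p : ℝ × ℝ => f (bR p.1 r p.2) :=
  hf.cont.comp (continuous_bR848 r)

theorem hasCompactSupport_F848 {n : ℤ} {f : GL (Fin 2) ℝ → ℂ} (hf : IsArchTestR n f) (r : ℝ) :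
    HasCompactSupport fun p : ℝ × ℝ => f (bR p.1 r p.2) := by
  have hK : IsCompact (tsupport f) := hf.supp
  have hval : Continuous fun g : GL (Fin 2) ℝ => (g : Matrix (Fin 2) (Fin 2) ℝ) :=
    Units.continuous_val
  have hinv : Continuous fun g : GL (Fin 2) ℝ =>
      ((g⁻¹ : GL (Fin 2) ℝ) : Matrix (Fin 2) (Fin 2) ℝ) :=
    hval.comp continuous_inv
  have c1 : Continuous fun g : GL (Fin 2) ℝ => (g : Matrix (Fin 2) (Fin 2) ℝ) 0 0 :=
    hval.matrix_elem 0 0
  have c2 : Continuous fun g : GL (Fin 2) ℝ => ((g⁻¹ : GL (Fin 2) ℝ) :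
      Matrix (Fin 2) (Fin 2) ℝ) 0 0 :=
    hinv.matrix_elem 0 0
  have c3 : Continuous fun g : GL (Fin 2) ℝ => (g : Matrix (Fin 2) (Fin 2) ℝ) 0 1 :=
    hval.matrix_elem 0 1
  obtain ⟨C₁, hC₁⟩ := hK.exists_bound_of_continuousOn c1.continuousOn
  obtain ⟨C₂, hC₂⟩ := hK.exists_bound_of_continuousOn c2.continuousOn
  obtain ⟨C₃, hC₃⟩ := hK.exists_bound_of_continuousOn c3.continuousOn
  refine HasCompactSupport.intro
    ((isCompact_Icc (a := -(2 * Real.log C₂) - r) (b := 2 * Real.log C₁ - r)).prod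
      (isCompact_Icc (a := -(C₃ * C₂)) (b := C₃ * C₂))) ?_
  intro p hp
  by_contra hne
  apply hp
  have hmem : bR p.1 r p.2 ∈ tsupport f := subset_tsupport f hne
  have h1 := hC₁ _ hmem
  have h2 := hC₂ _ hmem
  have h3 := hC₃ _ hmem
  simp only [coe_bR830, coe_inv_bR848, Matrix.of_apply, Matrix.cons_val', Matrix.cons_val_zero,
    Matrix.cons_val_one, Matrix.cons_val_fin_one, Real.norm_eq_abs] at h1 h2 h3
  rw [abs_of_pos (Real.exp_pos _)] at h1 h2
  have hC₁pos : 0 < C₁ := lt_of_lt_of_le (Real.exp_pos _) h1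
  have hC₂pos : 0 < C₂ := lt_of_lt_of_le (Real.exp_pos _) h2
  have e1 : (p.1 + r) / 2 ≤ Real.log C₁ := (Real.le_log_iff_exp_le hC₁pos).mpr h1
  have e2 : -((p.1 + r) / 2) ≤ Real.log C₂ := (Real.le_log_iff_exp_le hC₂pos).mpr h2
  have e3 : |p.2| ≤ C₃ * C₂ := by
    have hx : p.2 = Real.exp ((p.1 + r) / 2) * p.2 * Real.exp (-((p.1 + r) / 2)) := by
      have : Real.exp ((p.1 + r) / 2) * Real.exp (-((p.1 + r) / 2)) = 1 := by
        rw [← Real.exp_add, add_neg_cancel, Real.exp_zero]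
      linear_combination (-p.2) * this
    rw [hx, abs_mul, abs_of_pos (Real.exp_pos (-((p.1 + r) / 2)))]
    exact mul_le_mul h3 h2 (Real.exp_pos _).le ((abs_nonneg _).trans h3)
  refine ⟨⟨by linarith, by linarith⟩, ?_⟩
  exact abs_le.mp e3

theorem integrable_F848 {n : ℤ} {f : GL (Fin 2) ℝ → ℂ} (hf : IsArchTestR n f) (r : ℝ) :
    Integrable (fun p : ℝ × ℝ => f (bR p.1 r p.2))
      ((volume : Measure ℝ).prod (volume : Measure ℝ)) :=
  (continuous_F848 hf r).integrable_of_hasCompactSupport (hasCompactSupport_F848 hf r)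

/-! ## 3. The leaf -/

/-- **T6.21.4** -/
theorem hcZFormC848 : HcZFormC := by
  intro hC n _ f hf r
  unfold hcZ hcR
  rw [integral_integral_swap (f := fun ζ x : ℝ => f (bR ζ r x)) (integrable_F848 hf r)]
  refine integral_congr_ae (Filter.Eventually.of_forall fun x => ?_)
  show (∫ ζ : ℝ, f (bR ζ r x)) = wph n r x * torT f (arcosh830 (rhoRX r x))
  unfold torT
  rw [← integral_const_mul]
  exact integral_congr_ae (Filter.Eventually.of_forall fun ζ => f_bR848 hC hf ζ r x)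

example : HcZFormC := hcZFormC848

end Fermat.Agent.LT.T6.H848

end
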