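import Mathlib
import Fermat.Agent.LT.T6.Spec

/-!
# Row LT, tower T6, sub-leaf T6.05 `NormInjC` (helper848)

OFF-MAIN.  `normInjC848 : T6.NormInjC`, verbatim against `LT/T6/Spec.lean` (helper22@823e765ba),
UNCONDITIONAL (Mathlib only; `NormClassC` is not used).

[L] Lemma 4.2 for `GL₂`: if `N δ` is regular and `N δ`, `N δ'` are conjugate, then `δ`, `δ'` are
`σ`-conjugate.  Proof.

1. `σ(N δ) = δ⁻¹ (N δ) δ`, so trace and determinant of `M = N δ` are `σ`-fixed; `M` is not
   scalar, hence `M = P c P⁻¹` with `c` the companion matrix `[[0, -d], [1, τ]]`, `σ(c) = c`.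
   Replacing `δ`, `δ'` by `σ`-conjugates we may assume `N δ = N δ' = c`.
2. Then `δ`, `δ'` and all partial norms `N_j δ`, `N_j δ'` commute with `c`, i.e. they have the form
   `[[a, -d b], [b, a + τ b]]`.
3. Twisted Lagrange resolvent `X(t) = ∑_{j<l} σʲ(t) · N_j(δ) N_j(δ')⁻¹`, `t ∈ K'`:
   `δ σ(X(t)) = X(t) δ'`, `X(t)` commutes with `c`, `det X(t) = A² + τ A B + d B²`
   with `A = X(t)₀₀`, `B = X(t)₁₀`.
4. Dedekind's independence of the characters `σʲ`, `j < l`, gives `t` with `det X(t) ≠ 0`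
   (two cases: `X² - τ X + d` has a root in `K'` or not).
-/

set_option autoImplicit false

open scoped Matrix

noncomputable section

namespace Fermat.Agent.LT.T6.H848

open Fermat.Agent.LT.T6

/-! ## 1. The twisted norm in a group -/

section Group

variable {Γ : Type} [Group Γ] (φ : Γ →* Γ)

theorem twN_zero848 (δ : Γ) : twN φ 0 δ = 1 := rfl

theorem twN_succ848 (n : ℕ) (δ : Γ) : twN φ (n + 1) δ = δ * φ (twN φ n δ) := rfl

/-- The other recursion: `N_{n+1} δ = N_n δ · φⁿ(δ)`. -/
theorem twN_succ_right848 (n : ℕ) (δ : Γ) : twN φ (n + 1) δ = twN φ n δ * (φ^[n]) δ := by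
  induction n with
  | zero => simp [twN_succ848, twN_zero848]
  | succ n ih =>
    have h1 : twN φ (n + 1 + 1) δ = δ * φ (twN φ (n + 1) δ) := rfl
    have h2 : δ * φ (twN φ n δ) = twN φ (n + 1) δ := rfl
    rw [h1, ih, map_mul, ← mul_assoc, h2, ih, Function.iterate_succ_apply']

/-- `N_n (x⁻¹ δ φ(x)) = x⁻¹ (N_n δ) φⁿ(x)`. -/
theorem twN_twConj848 (n : ℕ) (x δ : Γ) :
    twN φ n (x⁻¹ * δ * φ x) = x⁻¹ * twN φ n δ * (φ^[n]) x := by
  induction n with
  | zero => simp [twN_zero848]
  | succ n ih =>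
    rw [twN_succ848, ih, twN_succ848, Function.iterate_succ_apply']
    simp only [map_mul, map_inv]
    group

/-- `φ(N_n δ) = δ⁻¹ (N_n δ) φⁿ(δ)`. -/
theorem map_twN848 (n : ℕ) (δ : Γ) : φ (twN φ n δ) = δ⁻¹ * twN φ n δ * (φ^[n]) δ := by
  have h := twN_succ_right848 φ n δ
  rw [twN_succ848] at h
  rw [mul_assoc, ← h]
  group

end Group

/-! ## 2. The automorphism of `GL₂` -/

section GlAut

variable {F : Type} [Field F] (s : F ≃+* F)

theorem glAut_apply848 (g : GL (Fin 2) F) (i j : Fin 2) :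
    ((glAut s g : GL (Fin 2) F) : Matrix (Fin 2) (Fin 2) F) i j
      = s ((g : Matrix (Fin 2) (Fin 2) F) i j) := rfl

theorem glAut_iterate848 (n : ℕ) (g : GL (Fin 2) F) (i j : Fin 2) :
    ((((glAut s)^[n]) g : GL (Fin 2) F) : Matrix (Fin 2) (Fin 2) F) i j
      = (s ^ n) ((g : Matrix (Fin 2) (Fin 2) F) i j) := by
  induction n with
  | zero => simp
  | succ n ih =>
    rw [Function.iterate_succ_apply', glAut_apply848, ih, pow_succ']
    rfl

theorem glAut_iterate_eq848 {l : ℕ} (hord : ∀ y : F, (s ^ l) y = y) (g : GL (Fin 2) F) :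
    ((glAut s)^[l]) g = g := by
  apply Units.ext
  ext i j
  rw [glAut_iterate848, hord]

theorem twNorm_twConj848 {l : ℕ} (hord : ∀ y : F, (s ^ l) y = y) (x δ : GL (Fin 2) F) :
    twNorm s l (x⁻¹ * δ * glAut s x) = x⁻¹ * twNorm s l δ * x := by
  unfold twNorm
  rw [twN_twConj848, glAut_iterate_eq848 s hord]

theorem glAut_twNorm848 {l : ℕ} (hord : ∀ y : F, (s ^ l) y = y) (δ : GL (Fin 2) F) :
    glAut s (twNorm s l δ) = δ⁻¹ * twNorm s l δ * δ := by
  unfold twNorm
  rw [map_twN848, glAut_iterate_eq848 s hord]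

end GlAut

/-! ## 3. Matrices commuting with a companion matrix -/

section Companion

variable {F : Type} [Field F]

/-- The companion matrix of `X² - τ X + d`. -/
def compMat848 (τ d : F) : Matrix (Fin 2) (Fin 2) F := !![0, -d; 1, τ]

theorem coords_of_comm848 {τ d : F} {M : Matrix (Fin 2) (Fin 2) F}
    (h : M * compMat848 τ d = compMat848 τ d * M) :
    M 0 1 = -d * M 1 0 ∧ M 1 1 = M 0 0 + τ * M 1 0 := by
  have h00 := congrFun (congrFun h 0) 0
  have h10 := congrFun (congrFun h 1) 0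
  simp only [compMat848, Matrix.mul_apply, Fin.sum_univ_two, Matrix.of_apply, Matrix.cons_val',
    Matrix.cons_val_zero, Matrix.cons_val_one, Matrix.cons_val_fin_one] at h00 h10
  constructor
  · linear_combination h00
  · linear_combination h10

theorem det_of_comm848 {τ d : F} {M : Matrix (Fin 2) (Fin 2) F}
    (h : M * compMat848 τ d = compMat848 τ d * M) :
    M.det = M 0 0 ^ 2 + τ * M 0 0 * M 1 0 + d * M 1 0 ^ 2 := by
  obtain ⟨h1, h2⟩ := coords_of_comm848 h
  rw [Matrix.det_fin_two, h1, h2]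
  ring

end Companion

/-! ## 4. Independence of the characters `σʲ`, `j < l` -/

section Dedekind

variable {F : Type} [Field F] (s : F ≃+* F)

theorem pow_injOn848 {l : ℕ} (hfaith : ∀ m : ℕ, 0 < m → m < l → ∃ y : F, (s ^ m) y ≠ y)
    {j j' : ℕ} (hj : j < l) (hj' : j' < l) (h : ∀ y : F, (s ^ j) y = (s ^ j') y) : j = j' := by
  -- it suffices to treat `j < j'`
  have key : ∀ a b : ℕ, a < b → b < l → (∀ y : F, (s ^ a) y = (s ^ b) y) → False := by
    intro a b hab hb hy
    obtain ⟨y, hy'⟩ := hfaith (b - a) (by omega) (by omega)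
    apply hy'
    have h1 : (s ^ b) y = (s ^ a) ((s ^ (b - a)) y) := by
      have : b = a + (b - a) := by omega
      conv_lhs => rw [this, pow_add]
      rfl
    have h2 := hy y
    rw [h1] at h2
    exact ((s ^ a).injective h2).symm
  rcases lt_trichotomy j j' with hlt | heq | hgt
  · exact (key j j' hlt hj' h).elim
  · exact heq
  · exact (key j' j hgt hj (fun y => (h y).symm)).elim

/-- **Dedekind**: a combination `∑_{j<l} k_j σʲ` with some `k_j ≠ 0` is not identically zero. -/
theorem exists_resolvent_ne_zero848 {l : ℕ}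
    (hfaith : ∀ m : ℕ, 0 < m → m < l → ∃ y : F, (s ^ m) y ≠ y)
    (k : ℕ → F) (hk : ∃ j, j < l ∧ k j ≠ 0) :
    ∃ t : F, ∑ j ∈ Finset.range l, (s ^ j) t * k j ≠ 0 := by
  by_contra hcon
  push Not at hcon
  let v : Fin l → (F →* F) := fun j => ((s ^ (j : ℕ) : F ≃+* F) : F →* F)
  have hinj : Function.Injective v := by
    intro a b hab
    apply Fin.ext
    apply pow_injOn848 s hfaith a.2 b.2
    intro y
    exact DFunLike.congr_fun hab y
  have hli : LinearIndependent F (fun j : Fin l => (v j : F → F)) :=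
    (linearIndependent_monoidHom F F).comp v hinj
  have hzero : ∑ j : Fin l, k (j : ℕ) • (v j : F → F) = 0 := by
    funext t
    have := hcon t
    rw [← Fin.sum_univ_eq_sum_range (fun j => (s ^ j) t * k j) l] at this
    simp only [Finset.sum_apply, Pi.smul_apply, smul_eq_mul, Pi.zero_apply]
    rw [← this]
    refine Finset.sum_congr rfl fun j _ => ?_
    rw [mul_comm]
    rfl
  obtain ⟨j, hj, hkj⟩ := hk
  exact hkj (Fintype.linearIndependent_iff.mp hli (fun j => k (j : ℕ)) hzero ⟨j, hj⟩)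

end Dedekind

/-! ## 5. The core: equal norms in companion form -/

section Core

variable {F : Type} [Field F] (s : F ≃+* F)

theorem glAut_comp_eq848 {τ d : F} (hτ : s τ = τ) (hd : s d = d) (c : GL (Fin 2) F)
    (hc : (c : Matrix (Fin 2) (Fin 2) F) = compMat848 τ d) : glAut s c = c := by
  apply Units.ext
  ext i j
  rw [glAut_apply848, hc]
  fin_cases i <;> fin_cases j <;> simp [compMat848, hτ, hd]

theorem comm_glAut848 {c g : GL (Fin 2) F} (hc : glAut s c = c) (h : g * c = c * g) :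
    glAut s g * c = c * glAut s g := by
  have := congrArg (glAut s) h
  rwa [map_mul, map_mul, hc] at this

theorem comm_twN848 {c δ : GL (Fin 2) F} (hc : glAut s c = c) (h : δ * c = c * δ) (j : ℕ) :
    twN (glAut s) j δ * c = c * twN (glAut s) j δ := by
  induction j with
  | zero => simp [twN_zero848]
  | succ j ih =>
    rw [twN_succ848, mul_assoc, comm_glAut848 s hc ih, ← mul_assoc, h, mul_assoc]

theorem comm_inv848 {c g : GL (Fin 2) F} (h : g * c = c * g) : g⁻¹ * c = c * g⁻¹ := by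
  have : c = g * c * g⁻¹ := by rw [h]; group
  calc g⁻¹ * c = g⁻¹ * (g * c * g⁻¹) := by rw [← this]
    _ = c * g⁻¹ := by group

/-- The coefficients of the resolvent. -/
def resCoeff848 (δ δ' : GL (Fin 2) F) (j : ℕ) : GL (Fin 2) F :=
  twN (glAut s) j δ * (twN (glAut s) j δ')⁻¹

theorem resCoeff_zero848 (δ δ' : GL (Fin 2) F) : resCoeff848 s δ δ' 0 = 1 := by
  simp [resCoeff848, twN_zero848]

theorem resCoeff_step848 (δ δ' : GL (Fin 2) F) (j : ℕ) :
    δ * glAut s (resCoeff848 s δ δ' j) = resCoeff848 s δ δ' (j + 1) * δ' := by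
  simp only [resCoeff848, twN_succ848, map_mul, map_inv]
  group

theorem resCoeff_comm848 {c δ δ' : GL (Fin 2) F} (hc : glAut s c = c) (h : δ * c = c * δ)
    (h' : δ' * c = c * δ') (j : ℕ) :
    resCoeff848 s δ δ' j * c = c * resCoeff848 s δ δ' j := by
  unfold resCoeff848
  rw [mul_assoc, comm_inv848 (comm_twN848 s hc h' j), ← mul_assoc, comm_twN848 s hc h j,
    mul_assoc]

/-- The twisted Lagrange resolvent `X(t) = ∑_{j<l} σʲ(t) · N_j(δ) N_j(δ')⁻¹`. -/
def resolvent848 (l : ℕ) (δ δ' : GL (Fin 2) F) (t : F) : Matrix (Fin 2) (Fin 2) F :=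
  ∑ j ∈ Finset.range l, (s ^ j) t • (resCoeff848 s δ δ' j : Matrix (Fin 2) (Fin 2) F)

theorem resolvent_apply848 (l : ℕ) (δ δ' : GL (Fin 2) F) (t : F) (a b : Fin 2) :
    resolvent848 s l δ δ' t a b
      = ∑ j ∈ Finset.range l,
          (s ^ j) t * (resCoeff848 s δ δ' j : Matrix (Fin 2) (Fin 2) F) a b := by
  simp [resolvent848, Matrix.sum_apply]

theorem resolvent_comm848 {c δ δ' : GL (Fin 2) F} (hc : glAut s c = c) (h : δ * c = c * δ)
    (h' : δ' * c = c * δ') (l : ℕ) (t : F) :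
    resolvent848 s l δ δ' t * (c : Matrix (Fin 2) (Fin 2) F)
      = (c : Matrix (Fin 2) (Fin 2) F) * resolvent848 s l δ δ' t := by
  unfold resolvent848
  rw [Finset.sum_mul, Finset.mul_sum]
  refine Finset.sum_congr rfl fun j _ => ?_
  have hj : (resCoeff848 s δ δ' j : Matrix (Fin 2) (Fin 2) F) * (c : Matrix (Fin 2) (Fin 2) F)
      = (c : Matrix (Fin 2) (Fin 2) F) * (resCoeff848 s δ δ' j : Matrix (Fin 2) (Fin 2) F) := by
    have := congrArg (fun g : GL (Fin 2) F => (g : Matrix (Fin 2) (Fin 2) F))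
      (resCoeff_comm848 s hc h h' j)
    simpa using this
  rw [smul_mul_assoc, mul_smul_comm, hj]

/-- The resolvent intertwines: `δ · σ(X) = X · δ'` when `N δ = N δ'`. -/
theorem resolvent_twist848 {l : ℕ} (hord : ∀ y : F, (s ^ l) y = y) (δ δ' : GL (Fin 2) F)
    (hN : twNorm s l δ = twNorm s l δ') (t : F) :
    (δ : Matrix (Fin 2) (Fin 2) F) * (resolvent848 s l δ δ' t).map s
      = resolvent848 s l δ δ' t * (δ' : Matrix (Fin 2) (Fin 2) F) := by
  -- the image under `σ`
  have hmap : (resolvent848 s l δ δ' t).map s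
      = ∑ j ∈ Finset.range l, (s ^ (j + 1)) t •
          (glAut s (resCoeff848 s δ δ' j) : Matrix (Fin 2) (Fin 2) F) := by
    ext a b
    rw [Matrix.map_apply, resolvent_apply848, map_sum, Matrix.sum_apply]
    refine Finset.sum_congr rfl fun j _ => ?_
    rw [map_mul, Matrix.smul_apply, smul_eq_mul, glAut_apply848, pow_succ']
    rfl
  -- the last coefficient is the first one
  have hlast : resCoeff848 s δ δ' l = 1 := by
    unfold resCoeff848
    have : twN (glAut s) l δ = twN (glAut s) l δ' := hN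
    rw [this, mul_inv_cancel]
  rw [hmap, Finset.mul_sum]
  have hstep : ∀ j ∈ Finset.range l,
      (δ : Matrix (Fin 2) (Fin 2) F) * ((s ^ (j + 1)) t •
          (glAut s (resCoeff848 s δ δ' j) : Matrix (Fin 2) (Fin 2) F))
        = ((s ^ (j + 1)) t • (resCoeff848 s δ δ' (j + 1) : Matrix (Fin 2) (Fin 2) F))
            * (δ' : Matrix (Fin 2) (Fin 2) F) := by
    intro j _
    have := congrArg (fun g : GL (Fin 2) F => (g : Matrix (Fin 2) (Fin 2) F))
      (resCoeff_step848 s δ δ' j)
    simp only [Units.val_mul] at this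
    rw [mul_smul_comm, this, smul_mul_assoc]
  rw [Finset.sum_congr rfl hstep, ← Finset.sum_mul]
  congr 1
  -- shift of the summation index
  have h1 := Finset.sum_range_succ
    (fun j => (s ^ j) t • (resCoeff848 s δ δ' j : Matrix (Fin 2) (Fin 2) F)) l
  have h2 := Finset.sum_range_succ'
    (fun j => (s ^ j) t • (resCoeff848 s δ δ' j : Matrix (Fin 2) (Fin 2) F)) l
  rw [h1] at h2
  have h3 : (s ^ l) t • (resCoeff848 s δ δ' l : Matrix (Fin 2) (Fin 2) F)
      = (s ^ 0) t • (resCoeff848 s δ δ' 0 : Matrix (Fin 2) (Fin 2) F) := by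
    rw [hlast, resCoeff_zero848, hord, pow_zero]
    rfl
  rw [h3] at h2
  unfold resolvent848
  exact (add_right_cancel h2).symm

/-- The `σ`-linear form `t ↦ ∑_{j<l} σʲ(t) k_j`. -/
def linForm848 (l : ℕ) (k : ℕ → F) (t : F) : F := ∑ j ∈ Finset.range l, (s ^ j) t * k j

theorem linForm_add848 (l : ℕ) (k : ℕ → F) (t t' : F) :
    linForm848 s l k (t + t') = linForm848 s l k t + linForm848 s l k t' := by
  unfold linForm848
  rw [← Finset.sum_add_distrib]
  refine Finset.sum_congr rfl fun j _ => ?_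
  rw [map_add, add_mul]

theorem linForm_comb848 (l : ℕ) (k k' : ℕ → F) (lam : F) (t : F) :
    linForm848 s l (fun j => k j + lam * k' j) t
      = linForm848 s l k t + lam * linForm848 s l k' t := by
  unfold linForm848
  rw [Finset.mul_sum, ← Finset.sum_add_distrib]
  refine Finset.sum_congr rfl fun j _ => ?_
  ring

/-- Two nonzero additive forms have a common point where both do not vanish. -/
theorem exists_both_ne_zero848 (L₁ L₂ : F → F)
    (h₁ : ∀ t t', L₁ (t + t') = L₁ t + L₁ t') (h₂ : ∀ t t', L₂ (t + t') = L₂ t + L₂ t')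
    (e₁ : ∃ t, L₁ t ≠ 0) (e₂ : ∃ t, L₂ t ≠ 0) : ∃ t, L₁ t ≠ 0 ∧ L₂ t ≠ 0 := by
  obtain ⟨t₁, ht₁⟩ := e₁
  obtain ⟨t₂, ht₂⟩ := e₂
  by_cases a : L₂ t₁ = 0
  · by_cases b : L₁ t₂ = 0
    · refine ⟨t₁ + t₂, ?_, ?_⟩
      · rw [h₁, b, add_zero]; exact ht₁
      · rw [h₂, a, zero_add]; exact ht₂
    · exact ⟨t₂, b, ht₂⟩
  · exact ⟨t₁, ht₁, a⟩

theorem exists_det_ne_zero848 {l : ℕ} (hl : 0 < l)
    (hfaith : ∀ m : ℕ, 0 < m → m < l → ∃ y : F, (s ^ m) y ≠ y)
    {τ d : F} {c δ δ' : GL (Fin 2) F}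
    (hcm : (c : Matrix (Fin 2) (Fin 2) F) = compMat848 τ d)
    (hc : glAut s c = c) (h : δ * c = c * δ) (h' : δ' * c = c * δ') :
    ∃ t : F, (resolvent848 s l δ δ' t).det ≠ 0 := by
  set kA : ℕ → F := fun j => (resCoeff848 s δ δ' j : Matrix (Fin 2) (Fin 2) F) 0 0 with hkA
  set kB : ℕ → F := fun j => (resCoeff848 s δ δ' j : Matrix (Fin 2) (Fin 2) F) 1 0 with hkB
  have hA0 : kA 0 = 1 := by simp [hkA, resCoeff_zero848]
  have hB0 : kB 0 = 0 := by simp [hkB, resCoeff_zero848]
  have hdet : ∀ t : F, (resolvent848 s l δ δ' t).det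
      = linForm848 s l kA t ^ 2 + τ * linForm848 s l kA t * linForm848 s l kB t
        + d * linForm848 s l kB t ^ 2 := by
    intro t
    have hcomm := resolvent_comm848 s hc h h' l t
    rw [hcm] at hcomm
    rw [det_of_comm848 hcomm, resolvent_apply848, resolvent_apply848]
    rfl
  by_cases hroot : ∃ lam : F, lam ^ 2 - τ * lam + d = 0
  · obtain ⟨lam, hlam⟩ := hroot
    have e₁ : ∃ t, linForm848 s l (fun j => kA j + lam * kB j) t ≠ 0 :=
      exists_resolvent_ne_zero848 s hfaith _ ⟨0, hl, by simp [hA0, hB0]⟩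
    have e₂ : ∃ t, linForm848 s l (fun j => kA j + (τ - lam) * kB j) t ≠ 0 :=
      exists_resolvent_ne_zero848 s hfaith _ ⟨0, hl, by simp [hA0, hB0]⟩
    obtain ⟨t, ht₁, ht₂⟩ := exists_both_ne_zero848 _ _ (linForm_add848 s l _) (linForm_add848 s l _)
      e₁ e₂
    refine ⟨t, ?_⟩
    rw [hdet]
    rw [linForm_comb848] at ht₁ ht₂
    have hfac : linForm848 s l kA t ^ 2 + τ * linForm848 s l kA t * linForm848 s l kB t
        + d * linForm848 s l kB t ^ 2
        = (linForm848 s l kA t + lam * linForm848 s l kB t)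
          * (linForm848 s l kA t + (τ - lam) * linForm848 s l kB t) := by
      linear_combination (linForm848 s l kB t ^ 2) * hlam
    rw [hfac]
    exact mul_ne_zero ht₁ ht₂
  · obtain ⟨t, ht⟩ : ∃ t, linForm848 s l kA t ≠ 0 :=
      exists_resolvent_ne_zero848 s hfaith _ ⟨0, hl, by simp [hA0]⟩
    refine ⟨t, ?_⟩
    rw [hdet]
    intro hzero
    by_cases hB : linForm848 s l kB t = 0
    · rw [hB] at hzero
      simp only [mul_zero, add_zero, ne_eq, OfNat.ofNat_ne_zero, not_false_eq_true, zero_pow] at hzero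
      exact ht (pow_eq_zero_iff (by norm_num) |>.mp hzero)
    · apply hroot
      refine ⟨-(linForm848 s l kA t) / linForm848 s l kB t, ?_⟩
      field_simp
      linear_combination hzero

/-- **Core**: `N δ = N δ' = c` in companion form with `σ`-fixed entries ⟹ `δ`, `δ'` are
`σ`-conjugate. -/
theorem core848 {l : ℕ} (hl : 0 < l) (hord : ∀ y : F, (s ^ l) y = y)
    (hfaith : ∀ m : ℕ, 0 < m → m < l → ∃ y : F, (s ^ m) y ≠ y)
    {τ d : F} (hτ : s τ = τ) (hd : s d = d) (c : GL (Fin 2) F)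
    (hcm : (c : Matrix (Fin 2) (Fin 2) F) = compMat848 τ d)
    (δ δ' : GL (Fin 2) F) (hδ : twNorm s l δ = c) (hδ' : twNorm s l δ' = c) :
    IsTwConj s δ δ' := by
  have hc : glAut s c = c := glAut_comp_eq848 s hτ hd c hcm
  have comm_of : ∀ ε : GL (Fin 2) F, twNorm s l ε = c → ε * c = c * ε := by
    intro ε hε
    have h1 := glAut_twNorm848 s hord ε
    rw [hε, hc] at h1
    calc ε * c = ε * (ε⁻¹ * c * ε) := by rw [← h1]
      _ = c * ε := by group
  have h := comm_of δ hδ
  have h' := comm_of δ' hδ'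
  obtain ⟨t, ht⟩ := exists_det_ne_zero848 s hl hfaith hcm hc h h'
  let X : GL (Fin 2) F := Matrix.GeneralLinearGroup.mkOfDetNeZero (resolvent848 s l δ δ' t) ht
  have hXval : (X : Matrix (Fin 2) (Fin 2) F) = resolvent848 s l δ δ' t := rfl
  have hXmap : ((glAut s X : GL (Fin 2) F) : Matrix (Fin 2) (Fin 2) F)
      = (resolvent848 s l δ δ' t).map s := by
    ext a b
    rw [glAut_apply848, hXval, Matrix.map_apply]
  have hkey : δ * glAut s X = X * δ' := by
    apply Units.ext
    rw [Units.val_mul, Units.val_mul, hXmap, hXval]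
    exact resolvent_twist848 s hord δ δ' (hδ.trans hδ'.symm) t
  refine ⟨X, ?_⟩
  rw [mul_assoc, hkey]
  group

end Core

/-! ## 6. Reduction to companion form and the leaf -/

section Reduction

variable {F : Type} [Field F]

theorem det_compMat848 (τ d : F) : (compMat848 τ d).det = d := by
  simp [compMat848, Matrix.det_fin_two]

/-- A regular element of `GL₂` is conjugate to the companion matrix of its characteristic
polynomial. -/
theorem exists_conj_companion848 (M : GL (Fin 2) F) (hreg : IsReg M) :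
    ∃ P c : GL (Fin 2) F,
      (c : Matrix (Fin 2) (Fin 2) F)
        = compMat848 (M : Matrix (Fin 2) (Fin 2) F).trace (M : Matrix (Fin 2) (Fin 2) F).det ∧
      P⁻¹ * M * P = c := by
  set Mm : Matrix (Fin 2) (Fin 2) F := (M : Matrix (Fin 2) (Fin 2) F) with hMm
  have hd : Mm.det ≠ 0 := by
    have := M.isUnit.map (Matrix.detMonoidHom (n := Fin 2) (R := F))
    exact this.ne_zero
  let c : GL (Fin 2) F := Matrix.GeneralLinearGroup.mkOfDetNeZero (compMat848 Mm.trace Mm.det)
    (by rw [det_compMat848]; exact hd)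
  have hcval : (c : Matrix (Fin 2) (Fin 2) F) = compMat848 Mm.trace Mm.det := rfl
  -- it suffices to find an invertible `Pm` with `Mm * Pm = Pm * companion`
  suffices h : ∃ Pm : Matrix (Fin 2) (Fin 2) F, Pm.det ≠ 0 ∧
      Mm * Pm = Pm * compMat848 Mm.trace Mm.det by
    obtain ⟨Pm, hPdet, hPm⟩ := h
    let P : GL (Fin 2) F := Matrix.GeneralLinearGroup.mkOfDetNeZero Pm hPdet
    refine ⟨P, c, hcval, ?_⟩
    have hMP : M * P = P * c := by
      apply Units.ext
      rw [Units.val_mul, Units.val_mul, hcval]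
      exact hPm
    rw [mul_assoc, hMP]
    group
  have htr : Mm.trace = Mm 0 0 + Mm 1 1 := Matrix.trace_fin_two Mm
  have hdet : Mm.det = Mm 0 0 * Mm 1 1 - Mm 0 1 * Mm 1 0 := Matrix.det_fin_two Mm
  by_cases h10 : Mm 1 0 = 0
  · by_cases h01 : Mm 0 1 = 0
    · -- diagonal, distinct eigenvalues
      have hne : Mm 1 1 - Mm 0 0 ≠ 0 := by
        intro h
        have hdisc : disc M = 0 := by
          unfold disc
          rw [← hMm, htr, hdet, h10, h01]
          have : Mm 1 1 = Mm 0 0 := sub_eq_zero.mp h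
          rw [this]; ring
        have hu : IsUnit (disc M) := hreg
        rw [hdisc] at hu
        exact not_isUnit_zero hu
      refine ⟨!![1, Mm 0 0; 1, Mm 1 1], ?_, ?_⟩
      · rw [Matrix.det_fin_two]
        simpa using hne
      · rw [htr, hdet, h10, h01]
        ext a b
        fin_cases a <;> fin_cases b <;>
          simp [compMat848, Matrix.mul_apply, Fin.sum_univ_two, h10, h01] <;> ring
    · refine ⟨!![0, Mm 0 1; 1, Mm 1 1], ?_, ?_⟩
      · rw [Matrix.det_fin_two]
        simpa using h01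
      · rw [htr, hdet, h10]
        ext a b
        fin_cases a <;> fin_cases b <;>
          simp [compMat848, Matrix.mul_apply, Fin.sum_univ_two, h10] <;> ring
  · refine ⟨!![1, Mm 0 0; 0, Mm 1 0], ?_, ?_⟩
    · rw [Matrix.det_fin_two]
      simpa using h10
    · rw [htr, hdet]
      ext a b
      fin_cases a <;> fin_cases b <;>
        simp [compMat848, Matrix.mul_apply, Fin.sum_univ_two] <;> ring

end Reduction

section Leaf

/-- **T6.05 `NormInjC`** ([L] Lemma 4.2), verbatim against `LT/T6/Spec.lean`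
(helper22@823e765ba). -/
theorem normInjC848 : NormInjC := by
  intro K K' _ _ l i s hcyc δ δ' hreg hconj
  have hl := hcyc.pos
  have hord := hcyc.order
  have hfaith := hcyc.faithful
  have hσM : glAut s (twNorm s l δ) = δ⁻¹ * twNorm s l δ * δ := glAut_twNorm848 s hord δ
  -- trace and determinant of the norm are `σ`-fixed
  have hval : ((glAut s (twNorm s l δ) : GL (Fin 2) K') : Matrix (Fin 2) (Fin 2) K')
      = ((δ⁻¹ : GL (Fin 2) K') : Matrix (Fin 2) (Fin 2) K')
        * (twNorm s l δ : Matrix (Fin 2) (Fin 2) K') * (δ : Matrix (Fin 2) (Fin 2) K') := by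
    rw [hσM]; simp
  have hinv : (δ : Matrix (Fin 2) (Fin 2) K') * ((δ⁻¹ : GL (Fin 2) K') : Matrix (Fin 2) (Fin 2) K')
      = 1 := by
    rw [← Units.val_mul, mul_inv_cancel]; rfl
  have htr : s (twNorm s l δ : Matrix (Fin 2) (Fin 2) K').trace
      = (twNorm s l δ : Matrix (Fin 2) (Fin 2) K').trace := by
    have h1 : ((glAut s (twNorm s l δ) : GL (Fin 2) K') : Matrix (Fin 2) (Fin 2) K').trace
        = s (twNorm s l δ : Matrix (Fin 2) (Fin 2) K').trace := by
      rw [Matrix.trace_fin_two, Matrix.trace_fin_two, glAut_apply848, glAut_apply848, map_add]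
    rw [← h1, hval, Matrix.trace_mul_comm, ← mul_assoc, hinv, one_mul]
  have hdet : s (twNorm s l δ : Matrix (Fin 2) (Fin 2) K').det
      = (twNorm s l δ : Matrix (Fin 2) (Fin 2) K').det := by
    have h1 : ((glAut s (twNorm s l δ) : GL (Fin 2) K') : Matrix (Fin 2) (Fin 2) K').det
        = s (twNorm s l δ : Matrix (Fin 2) (Fin 2) K').det := by
      rw [Matrix.det_fin_two, Matrix.det_fin_two]
      simp only [glAut_apply848, map_sub, map_mul]
    have h2 : (δ : Matrix (Fin 2) (Fin 2) K').det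
        * ((δ⁻¹ : GL (Fin 2) K') : Matrix (Fin 2) (Fin 2) K').det = 1 := by
      rw [← Matrix.det_mul, hinv, Matrix.det_one]
    rw [← h1, hval, Matrix.det_mul, Matrix.det_mul]
    linear_combination ((twNorm s l δ : Matrix (Fin 2) (Fin 2) K').det) * h2
  obtain ⟨P, c, hcm, hP⟩ := exists_conj_companion848 (twNorm s l δ) hreg
  obtain ⟨g, hg⟩ := isConj_iff.mp hconj
  have h1 : twNorm s l (P⁻¹ * δ * glAut s P) = c := by
    rw [twNorm_twConj848 s hord]; exact hP
  have h2 : twNorm s l ((g * P)⁻¹ * δ' * glAut s (g * P)) = c := by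
    rw [twNorm_twConj848 s hord, ← hg, ← hP]; group
  obtain ⟨X, hX⟩ := core848 s hl hord hfaith htr hdet c hcm _ _ h1 h2
  refine ⟨P * X * (g * P)⁻¹, ?_⟩
  have h3 : δ' = (g * P) * ((g * P)⁻¹ * δ' * glAut s (g * P)) * (glAut s (g * P))⁻¹ := by group
  rw [h3, hX]
  simp only [map_mul, map_inv]
  group

end Leaf

end Fermat.Agent.LT.T6.H848

end
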