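import Mathlib
import Fermat.Agent.LT.T6.H159.VanishSpec
import Fermat.Agent.LT.T6.H288.HypSpec
import Fermat.Agent.LT.T6.H848.NormInj

/-!
# Row LT, tower T6, sub-leaf T6.15b `HypVanishC` (helper848)

OFF-MAIN.  `hypVanish_of848 : H288.SatClosedC → H288.OrbSumDiagC → H159.HypVanishC`, against
`LT/T6/H159/VanishSpec.lean` (helper159, sha256 `35587965…`) and `LT/T6/H288/HypSpec.lean`
(helper288, sha256 `46fc5f22…`), both on `LT/T6/Spec.lean` (helper22, sha256 `89f8f8b8…`).

Proof.  `γ` regular with an eigenvalue in `k` is conjugate to `diag(t₁, t₂)`, `t₁ ≠ t₂`, and the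
orbit sum only depends on the conjugacy class; by `OrbSumDiagC` (instance `k' = k`, `l = 1`)
`O_γ(f) = q^{ord(t₁ - t₂)} · constTerm q f (ord t₁) (ord t₂)`.  By `SatClosedC` the Satake
transform of `f` is the Laurent polynomial `∑_m (√q)^{m₁+m₂} constTerm q f m₁ m₂ x^{m₁} y^{m₂}`;
`IsBC` says that it is a Laurent polynomial in `x^l, y^l`; the monomials are linearly independent
on `(ℂ^×)²` (Dedekind), so `constTerm q f m₁ m₂ = 0` unless `l ∣ m₁` and `l ∣ m₂`.
-/

set_option autoImplicit false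

open scoped Matrix

noncomputable section

namespace Fermat.Agent.LT.T6.H848

open Fermat.Agent.LT.T6

/-! ## 1. Laurent polynomials in two variables as functions on `(ℂ^×)²` -/

/-- The monomial character `(x, y) ↦ x^a y^b` of `ℂˣ × ℂˣ`. -/
def monoChar848 (m : ℤ × ℤ) : ℂˣ × ℂˣ →* ℂ where
  toFun p := ((p.1 : ℂ) ^ m.1) * ((p.2 : ℂ) ^ m.2)
  map_one' := by simp
  map_mul' p p' := by
    simp only [Prod.fst_mul, Prod.snd_mul, Units.val_mul, mul_zpow]
    ring

theorem two_zpow_inj848 {a b : ℤ} (h : (2 : ℂ) ^ a = (2 : ℂ) ^ b) : a = b := by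
  have h1 : ((2 : ℝ) ^ a : ℝ) = (2 : ℝ) ^ b := by
    have : (((2 : ℝ) ^ a : ℝ) : ℂ) = (((2 : ℝ) ^ b : ℝ) : ℂ) := by
      push_cast
      exact h
    exact Complex.ofReal_injective this
  exact zpow_right_injective₀ (by norm_num : (0 : ℝ) < 2) (by norm_num : (2 : ℝ) ≠ 1) h1

theorem monoChar_injective848 : Function.Injective monoChar848 := by
  intro m m' h
  have two_ne : (2 : ℂ) ≠ 0 := by norm_num
  have e1 := DFunLike.congr_fun h (Units.mk0 (2 : ℂ) two_ne, (1 : ℂˣ))
  have e2 := DFunLike.congr_fun h ((1 : ℂˣ), Units.mk0 (2 : ℂ) two_ne)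
  simp only [monoChar848, MonoidHom.coe_mk, OneHom.coe_mk, Units.val_mk0, Units.val_one,
    one_zpow, mul_one, one_mul] at e1 e2
  exact Prod.ext (two_zpow_inj848 e1) (two_zpow_inj848 e2)

theorem linInd_mono848 :
    LinearIndependent ℂ (fun m : ℤ × ℤ => (monoChar848 m : ℂˣ × ℂˣ → ℂ)) :=
  (linearIndependent_monoidHom (ℂˣ × ℂˣ) ℂ).comp monoChar848 monoChar_injective848

/-- Evaluation of a Laurent polynomial. -/
def evalL848 (P : (ℤ × ℤ) →₀ ℂ) (x y : ℂ) : ℂ := P.sum fun m c => c * (x ^ m.1 * y ^ m.2)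

theorem evalL_single848 (m : ℤ × ℤ) (c x y : ℂ) :
    evalL848 (Finsupp.single m c) x y = c * (x ^ m.1 * y ^ m.2) := by
  unfold evalL848
  rw [Finsupp.sum_single_index]
  simp

theorem evalL_add848 (P P' : (ℤ × ℤ) →₀ ℂ) (x y : ℂ) :
    evalL848 (P + P') x y = evalL848 P x y + evalL848 P' x y := by
  unfold evalL848
  rw [Finsupp.sum_add_index']
  · intro m; simp
  · intro m c c'; ring

theorem evalL_zero848 (x y : ℂ) : evalL848 0 x y = 0 := by
  simp [evalL848]

theorem evalL_finset_sum848 {ι : Type} (s : Finset ι) (P : ι → (ℤ × ℤ) →₀ ℂ) (x y : ℂ) :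
    evalL848 (∑ i ∈ s, P i) x y = ∑ i ∈ s, evalL848 (P i) x y := by
  classical
  induction s using Finset.induction_on with
  | empty => simp [evalL_zero848]
  | insert a s ha ih => rw [Finset.sum_insert ha, Finset.sum_insert ha, evalL_add848, ih]

theorem evalL_neg848 (P : (ℤ × ℤ) →₀ ℂ) (x y : ℂ) : evalL848 (-P) x y = - evalL848 P x y := by
  have h := evalL_add848 P (-P) x y
  rw [add_neg_cancel, evalL_zero848] at h
  linear_combination -h

/-- A Laurent polynomial which vanishes on `(ℂ^×)²` is zero. -/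
theorem eq_zero_of_evalL848 (P : (ℤ × ℤ) →₀ ℂ)
    (h : ∀ x y : ℂ, x ≠ 0 → y ≠ 0 → evalL848 P x y = 0) : P = 0 := by
  apply linearIndependent_iff.mp linInd_mono848 P
  funext p
  rw [Finsupp.linearCombination_apply]
  have := h (p.1 : ℂ) (p.2 : ℂ) p.1.ne_zero p.2.ne_zero
  unfold evalL848 at this
  simp only [Finsupp.sum, Finset.sum_apply, Pi.smul_apply, smul_eq_mul, Pi.zero_apply]
  rw [← this]
  rfl

/-! ## 2. The Satake transform as a Laurent polynomial -/

/-- The coefficient of the `j`-th monomial of the Satake polynomial of `λ` (as in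
`H288.SatClosedC`). -/
def satCoeff848 (q : ℕ) (lam : ℤ × ℤ) (j : ℕ) : ℂ :=
  ((Real.sqrt q : ℝ) : ℂ) ^ (lam.1 + lam.2) *
    H288.ctWeight q lam (lam.2 + (j : ℤ)) (lam.1 - (j : ℤ))

/-- The Laurent polynomial of `(x, y) ↦ ∑_λ f(λ) satake q λ (x^l) (y^l)`. -/
def laurentOf848 (q l : ℕ) (f : (ℤ × ℤ) →₀ ℂ) : (ℤ × ℤ) →₀ ℂ :=
  f.sum fun lam c => ∑ j ∈ Finset.range ((lam.1 - lam.2).toNat + 1),
    Finsupp.single ((l : ℤ) * (lam.2 + (j : ℤ)), (l : ℤ) * (lam.1 - (j : ℤ)))
      (c * satCoeff848 q lam j)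

theorem pow_zpow848 (x : ℂ) (l : ℕ) (a : ℤ) : (x ^ l) ^ a = x ^ ((l : ℤ) * a) := by
  rw [← zpow_natCast, ← zpow_mul]

theorem evalL_laurentOf848 (hS : H288.SatClosedC) {q : ℕ} (hq : 1 < q) (l : ℕ)
    (f : (ℤ × ℤ) →₀ ℂ) (hf : IsDominant f) {x y : ℂ} (hx : x ≠ 0) (hy : y ≠ 0) :
    evalL848 (laurentOf848 q l f) x y = f.sum fun lam c => c * satake q lam (x ^ l) (y ^ l) := by
  unfold laurentOf848
  rw [Finsupp.sum, evalL_finset_sum848, Finsupp.sum]
  refine Finset.sum_congr rfl fun lam hlam => ?_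
  rw [evalL_finset_sum848, hS q hq lam (hf lam hlam) (x ^ l) (y ^ l) (pow_ne_zero l hx)
    (pow_ne_zero l hy), Finset.mul_sum]
  refine Finset.sum_congr rfl fun j _ => ?_
  rw [evalL_single848, pow_zpow848, pow_zpow848]
  unfold satCoeff848
  ring

theorem laurentOf_apply848 (q l : ℕ) (f : (ℤ × ℤ) →₀ ℂ) (m : ℤ × ℤ) :
    laurentOf848 q l f m = ∑ lam ∈ f.support,
      ∑ j ∈ Finset.range ((lam.1 - lam.2).toNat + 1),
        if ((l : ℤ) * (lam.2 + (j : ℤ)), (l : ℤ) * (lam.1 - (j : ℤ))) = m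
          then f lam * satCoeff848 q lam j else 0 := by
  unfold laurentOf848
  rw [Finsupp.sum, Finsupp.finsetSum_apply]
  refine Finset.sum_congr rfl fun lam _ => ?_
  rw [Finsupp.finsetSum_apply]
  refine Finset.sum_congr rfl fun j _ => ?_
  rw [Finsupp.single_apply]

/-- The Laurent polynomial of `f^∨(x^l, y^l)` is supported on `l ℤ × l ℤ`. -/
theorem laurentOf_support848 (q l : ℕ) (f : (ℤ × ℤ) →₀ ℂ) (m : ℤ × ℤ)
    (hm : ¬ ((l : ℤ) ∣ m.1 ∧ (l : ℤ) ∣ m.2)) : laurentOf848 q l f m = 0 := by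
  rw [laurentOf_apply848]
  refine Finset.sum_eq_zero fun lam _ => Finset.sum_eq_zero fun j _ => ?_
  rw [if_neg]
  intro h
  apply hm
  rw [← h]
  exact ⟨Dvd.intro _ rfl, Dvd.intro _ rfl⟩

/-- The coefficients of the Satake transform are the constant terms. -/
theorem laurentOf_one_apply848 (q : ℕ) (f : (ℤ × ℤ) →₀ ℂ) (hf : IsDominant f) (m : ℤ × ℤ) :
    laurentOf848 q 1 f m
      = ((Real.sqrt q : ℝ) : ℂ) ^ (m.1 + m.2) * H288.constTerm q f m.1 m.2 := by
  rw [laurentOf_apply848]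
  unfold H288.constTerm
  rw [Finsupp.sum, Finset.mul_sum]
  refine Finset.sum_congr rfl fun lam hlam => ?_
  have hdom : lam.2 ≤ lam.1 := hf lam hlam
  -- the value common to all matching indices
  set V : ℂ := ((Real.sqrt q : ℝ) : ℂ) ^ (m.1 + m.2) * (f lam * H288.ctWeight q lam m.1 m.2)
    with hV
  have hterm : ∀ j ∈ Finset.range ((lam.1 - lam.2).toNat + 1),
      (if (((1 : ℕ) : ℤ) * (lam.2 + (j : ℤ)), ((1 : ℕ) : ℤ) * (lam.1 - (j : ℤ))) = m
        then f lam * satCoeff848 q lam j else 0)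
      = if j = (m.1 - lam.2).toNat then V else 0 := by
    intro j hj
    have hjn : (j : ℤ) ≤ lam.1 - lam.2 := by
      have := Finset.mem_range.mp hj
      omega
    by_cases h : (((1 : ℕ) : ℤ) * (lam.2 + (j : ℤ)), ((1 : ℕ) : ℤ) * (lam.1 - (j : ℤ))) = m
    · have h1 : lam.2 + (j : ℤ) = m.1 := by
        have := congrArg Prod.fst h; simpa using this
      have h2 : lam.1 - (j : ℤ) = m.2 := by
        have := congrArg Prod.snd h; simpa using this
      have hj' : j = (m.1 - lam.2).toNat := by omega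
      rw [if_pos h, if_pos hj', hV]
      unfold satCoeff848
      rw [h1, h2]
      have : lam.1 + lam.2 = m.1 + m.2 := by omega
      rw [this]
      ring
    · rw [if_neg h]
      by_cases hj' : j = (m.1 - lam.2).toNat
      · rw [if_pos hj']
        -- then the weight vanishes
        have hw : H288.ctWeight q lam m.1 m.2 = 0 := by
          unfold H288.ctWeight
          rw [if_neg]
          rintro ⟨hsum, hle⟩
          apply h
          have h1 : lam.2 ≤ m.1 := le_trans hle (min_le_left _ _)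
          have hjz : (j : ℤ) = m.1 - lam.2 := by
            rw [hj']; exact Int.toNat_of_nonneg (by omega)
          ext
          · simp; omega
          · simp; omega
        rw [hV, hw]
        ring
      · rw [if_neg hj']
  rw [Finset.sum_congr rfl hterm, Finset.sum_ite_eq']
  by_cases hmem : (m.1 - lam.2).toNat ∈ Finset.range ((lam.1 - lam.2).toNat + 1)
  · rw [if_pos hmem]
  · rw [if_neg hmem]
    -- outside the range the weight vanishes
    have hw : H288.ctWeight q lam m.1 m.2 = 0 := by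
      unfold H288.ctWeight
      rw [if_neg]
      rintro ⟨hsum, hle⟩
      apply hmem
      have h1 : lam.2 ≤ m.1 := le_trans hle (min_le_left _ _)
      have h2 : lam.2 ≤ m.2 := le_trans hle (min_le_right _ _)
      rw [Finset.mem_range]
      omega
    rw [hV, hw]
    ring

/-- **Vanishing of the constant terms of a base change** outside `l ℤ × l ℤ`. -/
theorem constTerm_eq_zero848 (hS : H288.SatClosedC) {q l : ℕ} (hq : 1 < q) (hl : 0 < l)
    (φ f : (ℤ × ℤ) →₀ ℂ) (hφ : IsDominant φ) (hf : IsDominant f) (hbc : IsBC l q φ f)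
    (m₁ m₂ : ℤ) (hm : ¬ ((l : ℤ) ∣ m₁ ∧ (l : ℤ) ∣ m₂)) : H288.constTerm q f m₁ m₂ = 0 := by
  have hql : 1 < q ^ l := Nat.one_lt_pow (Nat.pos_iff_ne_zero.mp hl) hq
  have hP : laurentOf848 q 1 f + -(laurentOf848 (q ^ l) l φ) = 0 := by
    apply eq_zero_of_evalL848
    intro x y hx hy
    rw [evalL_add848, evalL_neg848, evalL_laurentOf848 hS hq 1 f hf hx hy,
      evalL_laurentOf848 hS hql l φ hφ hx hy]
    have := hbc x y hx hy
    simp only [pow_one]
    rw [this]
    ring
  have hEq : laurentOf848 q 1 f = laurentOf848 (q ^ l) l φ := by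
    have := add_neg_eq_zero.mp hP
    exact this
  have h1 := laurentOf_one_apply848 q f hf (m₁, m₂)
  rw [hEq, laurentOf_support848 (q ^ l) l φ (m₁, m₂) hm] at h1
  have hsq : ((Real.sqrt q : ℝ) : ℂ) ≠ 0 := by
    have : (0 : ℝ) < Real.sqrt q := Real.sqrt_pos.mpr (by exact_mod_cast (by omega : 0 < q))
    exact_mod_cast this.ne'
  have := mul_eq_zero.mp h1.symm
  rcases this with h | h
  · exact absurd h (zpow_ne_zero _ hsq)
  · exact h

/-! ## 3. Reduction to the diagonal and the leaf -/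

section Diag

variable {k : Type} [Field k]

/-- A regular element with an eigenvalue `t` in `k` is conjugate to `diag(t, t₂)`, `t ≠ t₂`. -/
theorem exists_conj_diag848 (γ : GL (Fin 2) k) (hreg : IsReg γ) (t : k)
    (ht : t ^ 2 - (γ : Matrix (Fin 2) (Fin 2) k).trace * t
      + (γ : Matrix (Fin 2) (Fin 2) k).det = 0) :
    ∃ (t₂ : k) (γ₀ : GL (Fin 2) k), t ≠ t₂ ∧ t ≠ 0 ∧ t₂ ≠ 0 ∧
      (γ₀ : Matrix (Fin 2) (Fin 2) k) = !![t, 0; 0, t₂] ∧ IsConj γ γ₀ := by
  set τ : k := (γ : Matrix (Fin 2) (Fin 2) k).trace with hτ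
  set d : k := (γ : Matrix (Fin 2) (Fin 2) k).det with hd
  have hd0 : d ≠ 0 := by
    have := γ.isUnit.map (Matrix.detMonoidHom (n := Fin 2) (R := k))
    exact this.ne_zero
  have hprod : t * (τ - t) = d := by linear_combination -ht
  have hdisc : τ ^ 2 - 4 * d ≠ 0 := by
    have hu : IsUnit (disc γ) := hreg
    exact hu.ne_zero
  have hne : t ≠ τ - t := by
    intro h
    apply hdisc
    have h2 : τ = 2 * t := by linear_combination -h
    rw [← hprod, h2]
    ring
  have ht0 : t ≠ 0 := by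
    intro h
    rw [h, zero_mul] at hprod
    exact hd0 hprod.symm
  have ht20 : τ - t ≠ 0 := by
    intro h
    rw [h, mul_zero] at hprod
    exact hd0 hprod.symm
  obtain ⟨P, c, hcm, hP⟩ := exists_conj_companion848 γ hreg
  have hQdet : (!![-(τ - t), -t; 1, 1] : Matrix (Fin 2) (Fin 2) k).det ≠ 0 := by
    rw [Matrix.det_fin_two]
    simp only [Matrix.of_apply, Matrix.cons_val', Matrix.cons_val_zero, Matrix.cons_val_one,
      Matrix.cons_val_fin_one]
    intro h
    apply hne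
    linear_combination h
  have hDdet : (!![t, 0; 0, τ - t] : Matrix (Fin 2) (Fin 2) k).det ≠ 0 := by
    rw [Matrix.det_fin_two]
    simp only [Matrix.of_apply, Matrix.cons_val', Matrix.cons_val_zero, Matrix.cons_val_one,
      Matrix.cons_val_fin_one]
    simpa using mul_ne_zero ht0 ht20
  let Q : GL (Fin 2) k := Matrix.GeneralLinearGroup.mkOfDetNeZero _ hQdet
  let γ₀ : GL (Fin 2) k := Matrix.GeneralLinearGroup.mkOfDetNeZero _ hDdet
  have hcQ : c * Q = Q * γ₀ := by
    apply Units.ext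
    rw [Units.val_mul, Units.val_mul, hcm]
    change compMat848 τ d * !![-(τ - t), -t; 1, 1] = !![-(τ - t), -t; 1, 1] * !![t, 0; 0, τ - t]
    rw [← hprod]
    ext a b
    fin_cases a <;> fin_cases b <;>
      simp [compMat848, Matrix.mul_apply, Fin.sum_univ_two] <;> ring
  refine ⟨τ - t, γ₀, hne, ht0, ht20, rfl, ?_⟩
  rw [isConj_iff]
  refine ⟨(P * Q)⁻¹, ?_⟩
  have h1 : γ = P * c * P⁻¹ := by rw [← hP]; group
  have h2 : c = Q * γ₀ * Q⁻¹ := by rw [← hcQ]; group
  rw [h1, h2]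
  group

end Diag

section Transfer

theorem glAut_refl848 {R : Type} [CommRing R] (x : GL (Fin 2) R) :
    glAut (RingEquiv.refl R) x = x := by
  apply Units.ext
  ext a b
  rfl

/-- The orbit sum only depends on the conjugacy class. -/
theorem isOrbSum_of_isConj848 {k : Type} [Field k] [Valued k Γ₀] (n : ℕ)
    (Φ : GL (Fin 2) k → ℂ) {γ γ₀ : GL (Fin 2) k} (h : IsConj γ γ₀) {c : ℂ}
    (hc : IsOrbSum n Φ γ c) : IsOrbSum n Φ γ₀ c := by
  obtain ⟨g, hg⟩ := isConj_iff.mp h
  have hcl : ∀ y : GL (Fin 2) k,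
      (∃ x : GL (Fin 2) k, y = x⁻¹ * γ * glAut (RingEquiv.refl k) x)
        ↔ ∃ x : GL (Fin 2) k, y = x⁻¹ * γ₀ * glAut (RingEquiv.refl k) x := by
    intro y
    constructor
    · rintro ⟨x, rfl⟩
      refine ⟨g * x, ?_⟩
      rw [glAut_refl848, glAut_refl848, ← hg]
      group
    · rintro ⟨x, rfl⟩
      refine ⟨g⁻¹ * x, ?_⟩
      rw [glAut_refl848, glAut_refl848, ← hg]
      group
  obtain ⟨R, h1, h2, h3, h4⟩ := hc
  refine ⟨R, ?_, h2, ?_, h4⟩
  · intro y hy
    exact (hcl y).1 (h1 y hy)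
  · intro y hy hne
    exact h3 y ((hcl y).2 hy) hne

theorem isLocalExt_refl848 (k : Type) [Field k] [Valued k Γ₀] :
    IsLocalExt k k 1 1 (RingHom.id k) (RingEquiv.refl k) where
  cyc :=
    { pos := Nat.one_pos
      fix_i := fun _ => rfl
      fixed := fun y _ => ⟨y, rfl⟩
      order := fun _ => rfl
      faithful := fun m h0 h1 => absurd h1 (by omega) }
  e_pos := Nat.one_pos
  val_i := fun x => by simp
  val_s := fun _ => rfl

theorem fNorm_refl_one848 {k : Type} [Field k] (t : k) :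
    H288.fNorm (RingEquiv.refl k) 1 t = t := by
  simp [H288.fNorm]

end Transfer

/-- **T6.15b `HypVanishC`** from the closed form of the Satake polynomials (`T6.12a`) and the
orbit sum at a diagonal element (`T6.12e` + `T6.12h`, instance `k' = k`, `l = 1`). -/
theorem hypVanish_of848 (hS : H288.SatClosedC) (hO : H288.OrbSumDiagC) : H159.HypVanishC := by
  intro k _ _ q l hk hl φ f hφ hf hbc γ c' t hreg ht hlt horb
  have hq : 1 < q := H159.one_lt_of_isLocalField hk
  obtain ⟨t₂, γ₀, hne, ht0, ht20, hγ₀, hconj⟩ := exists_conj_diag848 γ hreg t ht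
  have horb₀ : IsOrbSum 0 (fun g => f (cartan g)) γ₀ c' := isOrbSum_of_isConj848 0 _ hconj horb
  have hk1 : IsLocalField k (q ^ 1) := by rwa [pow_one]
  have key := hO k k q 1 (RingHom.id k) (RingEquiv.refl k) hk hk1 (isLocalExt_refl848 k) f
    t t₂ t t₂ γ₀ hγ₀ ht0 ht20 hne (fNorm_refl_one848 t) (fNorm_refl_one848 t₂) c' horb₀
  rw [key, pow_one]
  have hzero : H288.constTerm q f (H288.ordv t) (H288.ordv t₂) = 0 := by
    apply constTerm_eq_zero848 hS hq hl φ f hφ hf hbc
    rintro ⟨h1, -⟩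
    apply hlt
    unfold H288.ordv at h1
    exact (dvd_neg.mp h1)
  rw [hzero, mul_zero]

end Fermat.Agent.LT.T6.H848

end
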